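/-
T1B (S44), brick CMP (helper15), part B1: representatives of trivialisations.

* `mem_smul_top_of_tmul_eq_zero`, `exists_smul_eq_smul_of_generates` (Mathlib only): if `R → R'` is onto
  and `1 ⊗ m` generates `R' ⊗[R] N` (`N` finite) then some `s ∈ R` with image `1` in `R'` carries `N` into `R m`
  (Nakayama);
* for a base change `h : LiftData L L'` along a cube of rings with surjective chart maps and trivialisations
  `e_j` of the chart modules of `L'`: representatives `m_j ∈ L.N_j` of the generators `e_j 1`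
  (`exists_rep0/1`), they generate (`generates_rep0/1`), and a relation
  `s₀ • r₁ m₁ = b • r₀ m₀` in `L.N01` computes the transition unit:
  `s₀' * transUnit L' e0 e1 = b'` (`transUnit_mul_of_rel`).
-/
import Mathlib
import Fermat.Agent.T1.Red11.CechLine

set_option autoImplicit false
set_option linter.unusedSectionVars false

open TensorProduct

namespace Fermat.Agent.T1B.Cmp15

section Nakayama

variable {R R' : Type*} [CommRing R] [CommRing R'] [Algebra R R']
  {N : Type*} [AddCommGroup N] [Module R N]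

/-- The kernel of `N → R' ⊗[R] N` for a surjection `R → R'` is `ker(R → R') • N`. -/
theorem mem_smul_top_of_tmul_eq_zero (hs : Function.Surjective (algebraMap R R')) (z : N)
    (hz : (1 : R') ⊗ₜ[R] z = 0) :
    z ∈ (RingHom.ker (algebraMap R R')) • (⊤ : Submodule R N) := by
  set I : Ideal R := RingHom.ker (algebraMap R R') with hI
  have hs' : Function.Surjective (Algebra.ofId R R') := hs
  let e : (R ⧸ RingHom.ker (Algebra.ofId R R')) ≃ₐ[R] R' :=
    Ideal.quotientKerAlgEquivOfSurjective hs'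
  have hker : RingHom.ker (Algebra.ofId R R') = I := rfl
  let E : R' ⊗[R] N ≃ₗ[R] (R ⧸ RingHom.ker (Algebra.ofId R R')) ⊗[R] N :=
    TensorProduct.congr e.symm.toLinearEquiv (LinearEquiv.refl R N)
  have h1 : E ((1 : R') ⊗ₜ[R] z) = (1 : R ⧸ RingHom.ker (Algebra.ofId R R')) ⊗ₜ[R] z := by
    simp [E]
  have h2 : (1 : R ⧸ RingHom.ker (Algebra.ofId R R')) ⊗ₜ[R] z = 0 := by
    rw [← h1, hz, map_zero]
  have h3 := congrArg (TensorProduct.quotTensorEquivQuotSMul N (RingHom.ker (Algebra.ofId R R'))) h2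
  rw [map_zero, ← map_one (Ideal.Quotient.mk _), TensorProduct.quotTensorEquivQuotSMul_mk_tmul,
    one_smul, Submodule.Quotient.mk_eq_zero] at h3
  exact h3

/-- **Nakayama**: if `1 ⊗ m` generates `R' ⊗[R] N` then `s • N ⊆ R m` for some `s ≡ 1`. -/
theorem exists_smul_eq_smul_of_generates [Module.Finite R N]
    (hs : Function.Surjective (algebraMap R R')) (m : N)
    (hm : ∀ x : N, ∃ c : R', (1 : R') ⊗ₜ[R] x = c • ((1 : R') ⊗ₜ[R] m)) :
    ∃ s : R, algebraMap R R' s = 1 ∧ ∀ x : N, ∃ c : R, s • x = c • m := by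
  set I : Ideal R := RingHom.ker (algebraMap R R') with hI
  -- every `x` is a multiple of `m` modulo `I • N`
  have h1 : ∀ x : N, ∃ c : R, x - c • m ∈ I • (⊤ : Submodule R N) := by
    intro x
    obtain ⟨c', hc'⟩ := hm x
    obtain ⟨c, rfl⟩ := hs c'
    refine ⟨c, mem_smul_top_of_tmul_eq_zero hs _ ?_⟩
    rw [TensorProduct.tmul_sub, hc', TensorProduct.tmul_smul, Algebra.algebraMap_eq_smul_one,
      smul_assoc, one_smul, sub_self]
  -- the quotient `Q = N / R m`
  let Q := N ⧸ (Submodule.span R {m})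
  have hQ : (⊤ : Submodule R Q) ≤ I • (⊤ : Submodule R Q) := by
    intro q _
    obtain ⟨x, rfl⟩ := Submodule.Quotient.mk_surjective _ q
    obtain ⟨c, hc⟩ := h1 x
    have h2 : (Submodule.Quotient.mk x : Q) = Submodule.Quotient.mk (x - c • m) := by
      rw [Submodule.Quotient.eq]
      have : x - (x - c • m) = c • m := by abel
      rw [this]
      exact Submodule.smul_mem _ _ (Submodule.mem_span_singleton_self m)
    rw [h2]
    have h3 : (I • (⊤ : Submodule R N)).map (Submodule.mkQ (Submodule.span R {m}))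
        ≤ I • (⊤ : Submodule R Q) := by
      rw [Submodule.map_smul'']
      exact smul_mono_right _ le_top
    exact h3 (Submodule.mem_map_of_mem hc)
  have hfg : (⊤ : Submodule R Q).FG := Module.finite_def.1 inferInstance
  obtain ⟨s, hsI, hsQ⟩ :=
    Submodule.exists_sub_one_mem_and_smul_eq_zero_of_fg_of_le_smul I ⊤ hfg hQ
  refine ⟨s, ?_, fun x => ?_⟩
  · have : algebraMap R R' (s - 1) = 0 := hsI
    rw [map_sub, map_one, sub_eq_zero] at this
    exact this
  · have h4 := hsQ (Submodule.Quotient.mk x) Submodule.mem_top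
    rw [← Submodule.Quotient.mk_smul, Submodule.Quotient.mk_eq_zero,
      Submodule.mem_span_singleton] at h4
    obtain ⟨c, hc⟩ := h4
    exact ⟨c, hc.symm⟩

/-- Over a surjection `R → R'` every element of `R' ⊗[R] N` is a pure tensor `1 ⊗ x`. -/
theorem exists_one_tmul_eq (hs : Function.Surjective (algebraMap R R')) (z : R' ⊗[R] N) :
    ∃ x : N, z = (1 : R') ⊗ₜ[R] x := by
  induction z using TensorProduct.induction_on with
  | zero => exact ⟨0, by simp⟩
  | tmul r' x =>
    obtain ⟨r, rfl⟩ := hs r'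
    refine ⟨r • x, ?_⟩
    rw [TensorProduct.tmul_smul, Algebra.algebraMap_eq_smul_one, TensorProduct.smul_tmul']
  | add z z' hz hz' =>
    obtain ⟨x, rfl⟩ := hz
    obtain ⟨x', rfl⟩ := hz'
    exact ⟨x + x', by rw [TensorProduct.tmul_add]⟩

end Nakayama

/-! ### Representatives of trivialisations of a base change -/

section Cube

open Fermat.Agent.Jac Fermat.Agent.Jac.JSmooth85Alg Fermat.Agent.T1.Red11

universe u

variable {A R0 R1 R01 A' R0' R1' R01' : Type u}
  [CommRing A] [CommRing R0] [CommRing R1] [CommRing R01]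
  [Algebra A R0] [Algebra A R1] [Algebra A R01] [Algebra R0 R01] [Algebra R1 R01]
  [IsScalarTower A R0 R01] [IsScalarTower A R1 R01]
  [CommRing A'] [CommRing R0'] [CommRing R1'] [CommRing R01']
  [Algebra A' R0'] [Algebra A' R1'] [Algebra A' R01'] [Algebra R0' R01'] [Algebra R1' R01']
  [IsScalarTower A' R0' R01'] [IsScalarTower A' R1' R01']
  [Algebra R0 R0'] [Algebra R1 R1'] [Algebra R01 R01']
  {L : QC2 A R0 R1 R01} {L' : QC2 A' R0' R1' R01'} (h : LiftData L L')
  (e0 : R0' ≃ₗ[R0'] L'.N0) (e1 : R1' ≃ₗ[R1'] L'.N1)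

/-- a representative in `L.N0` of the generator `e0 1` of `L'.N0`. -/
theorem exists_rep0 (hs0 : Function.Surjective (algebraMap R0 R0')) :
    ∃ m0 : L.N0, h.e0 ((1 : R0') ⊗ₜ[R0] m0) = e0 1 := by
  obtain ⟨x, hx⟩ := exists_one_tmul_eq hs0 (h.e0.symm (e0 1))
  exact ⟨x, by rw [← hx, LinearEquiv.apply_symm_apply]⟩

/-- a representative in `L.N1` of the generator `e1 1` of `L'.N1`. -/
theorem exists_rep1 (hs1 : Function.Surjective (algebraMap R1 R1')) :
    ∃ m1 : L.N1, h.e1 ((1 : R1') ⊗ₜ[R1] m1) = e1 1 := by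
  obtain ⟨x, hx⟩ := exists_one_tmul_eq hs1 (h.e1.symm (e1 1))
  exact ⟨x, by rw [← hx, LinearEquiv.apply_symm_apply]⟩

/-- the representative generates the base change. -/
theorem generates_rep0 {m0 : L.N0} (hm0 : h.e0 ((1 : R0') ⊗ₜ[R0] m0) = e0 1) (x : L.N0) :
    ∃ c : R0', (1 : R0') ⊗ₜ[R0] x = c • ((1 : R0') ⊗ₜ[R0] m0) := by
  refine ⟨e0.symm (h.e0 ((1 : R0') ⊗ₜ[R0] x)), ?_⟩
  apply h.e0.injective
  rw [map_smul, hm0, ← map_smul, smul_eq_mul, mul_one, LinearEquiv.apply_symm_apply]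

theorem generates_rep1 {m1 : L.N1} (hm1 : h.e1 ((1 : R1') ⊗ₜ[R1] m1) = e1 1) (x : L.N1) :
    ∃ c : R1', (1 : R1') ⊗ₜ[R1] x = c • ((1 : R1') ⊗ₜ[R1] m1) := by
  refine ⟨e1.symm (h.e1 ((1 : R1') ⊗ₜ[R1] x)), ?_⟩
  apply h.e1.injective
  rw [map_smul, hm1, ← map_smul, smul_eq_mul, mul_one, LinearEquiv.apply_symm_apply]

/-- **The transition unit from a relation upstairs**: if `σ • r₁ m₁ = b • r₀ m₀` in `L.N01` then
`σ' * transUnit L' e0 e1 = b'` in `R01'`. -/
theorem transUnit_mul_of_rel {m0 : L.N0} {m1 : L.N1}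
    (hm0 : h.e0 ((1 : R0') ⊗ₜ[R0] m0) = e0 1) (hm1 : h.e1 ((1 : R1') ⊗ₜ[R1] m1) = e1 1)
    {σ b : R01} (hrel : σ • L.r1 m1 = b • L.r0 m0) :
    algebraMap R01 R01' σ * ((transUnit L' e0 e1 : R01'ˣ) : R01') = algebraMap R01 R01' b := by
  set u : R01' := ((transUnit L' e0 e1 : R01'ˣ) : R01') with hu
  have hsm : ∀ (c : R01) (x : L.N01),
      h.e01 ((1 : R01') ⊗ₜ[R01] (c • x)) = algebraMap R01 R01' c • h.e01 ((1 : R01') ⊗ₜ[R01] x) := by
    intro c x
    rw [← map_smul, TensorProduct.tmul_smul, Algebra.algebraMap_eq_smul_one, smul_assoc, one_smul]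
  have h1 := congrArg (fun x => h.e01 ((1 : R01') ⊗ₜ[R01] x)) hrel
  simp only [hsm] at h1
  rw [h.comm1, h.comm0, hm0, hm1, ← transUnit_smul L' e0 e1, ← hu, ← mul_smul,
    ← triv01OfTriv0_one] at h1
  have h2 := congrArg (triv01OfTriv0 L' e0).symm h1
  rw [map_smul, map_smul, LinearEquiv.symm_apply_apply, smul_eq_mul, smul_eq_mul, mul_one,
    mul_one] at h2
  exact h2

/-- the image on the overlap of the representative does not vanish. -/
theorem r0_rep_ne_zero [Nontrivial R01'] {m0 : L.N0}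
    (hm0 : h.e0 ((1 : R0') ⊗ₜ[R0] m0) = e0 1) : L.r0 m0 ≠ 0 := by
  intro hz
  have h1 : L'.r0 (e0 1) = 0 := by
    rw [← hm0, ← h.comm0, hz, TensorProduct.tmul_zero, map_zero]
  rw [← triv01OfTriv0_one] at h1
  have h2 := (triv01OfTriv0 L' e0).injective (h1.trans (map_zero _).symm)
  exact one_ne_zero h2

theorem r1_rep_ne_zero [Nontrivial R01'] {m1 : L.N1}
    (hm1 : h.e1 ((1 : R1') ⊗ₜ[R1] m1) = e1 1) : L.r1 m1 ≠ 0 := by
  intro hz
  have h1 : L'.r1 (e1 1) = 0 := by
    rw [← hm1, ← h.comm1, hz, TensorProduct.tmul_zero, map_zero]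
  rw [← triv01OfTriv1_one] at h1
  have h2 := (triv01OfTriv1 L' e1).injective (h1.trans (map_zero _).symm)
  exact one_ne_zero h2

end Cube

end Fermat.Agent.T1B.Cmp15
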