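/-
T1B (S44), brick CMP (helper15), part B2: the truncation of a class of `J̃1(O)` computed from
representatives.

`M` a line two-chart module on `X_O` whose class lies in `J̃1(O)`, `n ≠ 0`.  Then there are elements
`m_j ∈ M.N_j`, `s_j ∈ O ⊗ B_j` with `s_j ↦ 1` in `O/𝔪^n ⊗ B_j` and `s_j • M.N_j ⊆ (O ⊗ B_j) m_j`
(the `m_j` are generators away from `V(s_j)`, which misses the special fibre), an element
`b ∈ O ⊗ B01` with `s₀ • r₁ m₁ = b • r₀ m₀`, and the truncation of the class at level `n` is the Čech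
class of the unit `ū` with `s̄₀ ū = b̄`, i.e. of "`m₁ / m₀` modulo `𝔪^n`".
-/
import Mathlib
import Fermat.Agent.T1.Red11.NilpTriv
import Fermat.Agent.T1.Red11.CoordEU
import Fermat.Agent.T1B.Cmp15.Trunc

set_option autoImplicit false
set_option linter.unusedSectionVars false
set_option linter.style.haveILetI false
set_option maxHeartbeats 1000000

open TensorProduct

noncomputable section

namespace Fermat.Agent.T1B.Cmp15

open Fermat.Agent.Jac Fermat.Agent.Jac.JSmooth85Alg Fermat.Agent.Jac.JGroup85Pic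
open Fermat.Agent.Jac.LineOps39 Fermat.Agent.Jac.BaseChange75
open Fermat.Agent.T1.RedIface75 Fermat.Agent.T1.Red11
open scoped Fermat.Agent.Jac.BaseChange75

universe u

variable {W B0 B1 B01 : Type u} [CommRing W] [CommRing B0] [CommRing B1] [CommRing B01]
  [Algebra W B0] [Algebra W B1] [Algebra W B01] [Algebra B0 B01] [Algebra B1 B01]
  [IsScalarTower W B0 B01] [IsScalarTower W B1 B01]
  (c0 : TwoChart W B0 B1 B01)
  (O : Type u) [CommRing O] [IsDomain O] [IsDiscreteValuationRing O] [Algebra W O]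

local notation "𝔪O" => IsLocalRing.maximalIdeal O

/-- the relation on the overlap between the two chart generators. -/
theorem exists_overlap_rel (M : QC2 O (O ⊗[W] B0) (O ⊗[W] B1) (O ⊗[W] B01))
    {m0 : M.N0} {s0 : O ⊗[W] B0} (hs0 : ∀ x : M.N0, ∃ c : O ⊗[W] B0, s0 • x = c • m0)
    (z : M.N01) :
    ∃ b : O ⊗[W] B01, algebraMap (O ⊗[W] B0) (O ⊗[W] B01) s0 • z = b • M.r0 m0 := by
  induction z using M.bc0.inductionOn with
  | zero => exact ⟨0, by simp⟩
  | tmul x =>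
    obtain ⟨c, hc⟩ := hs0 x
    refine ⟨algebraMap (O ⊗[W] B0) (O ⊗[W] B01) c, ?_⟩
    rw [algebraMap_smul, algebraMap_smul, ← map_smul, ← map_smul, hc]
  | smul a z hz =>
    obtain ⟨b, hb⟩ := hz
    exact ⟨a * b, by rw [smul_comm, hb, mul_smul]⟩
  | add z z' hz hz' =>
    obtain ⟨b, hb⟩ := hz
    obtain ⟨b', hb'⟩ := hz'
    exact ⟨b + b', by rw [smul_add, hb, hb', add_smul]⟩

/-- **Level `n` representatives** of a class of `J̃1(O)`. -/
theorem exists_level_rep (M : QC2 O (O ⊗[W] B0) (O ⊗[W] B1) (O ⊗[W] B01)) (hM : M.IsLine)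
    (hy : LinePic.mk (c0.baseChange O) M hM ∈ J1 c0 O) {n : ℕ} (hn : n ≠ 0) :
    ∃ (m0 : M.N0) (m1 : M.N1) (s0 : O ⊗[W] B0) (s1 : O ⊗[W] B1) (b : O ⊗[W] B01)
      (u : (Trunc O n ⊗[W] B01)ˣ),
      algebraMap (O ⊗[W] B0) (Trunc O n ⊗[W] B0) s0 = 1 ∧
      algebraMap (O ⊗[W] B1) (Trunc O n ⊗[W] B1) s1 = 1 ∧
      (∀ x : M.N0, ∃ c : O ⊗[W] B0, s0 • x = c • m0) ∧
      (∀ x : M.N1, ∃ c : O ⊗[W] B1, s1 • x = c • m1) ∧
      algebraMap (O ⊗[W] B0) (O ⊗[W] B01) s0 • M.r1 m1 = b • M.r0 m0 ∧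
      (Nontrivial (Trunc O n ⊗[W] B01) → M.r0 m0 ≠ 0 ∧ M.r1 m1 ≠ 0) ∧
      PicX.map c0 O (Trunc O n) (LinePic.mk (c0.baseChange O) M hM)
        = cechClass (c0.baseChange (Trunc O n)) u ∧
      algebraMap (O ⊗[W] B01) (Trunc O n ⊗[W] B01)
          (algebraMap (O ⊗[W] B0) (O ⊗[W] B01) s0) * (u : Trunc O n ⊗[W] B01)
        = algebraMap (O ⊗[W] B01) (Trunc O n ⊗[W] B01) b := by
  -- the algebra `O/𝔪^n → κ`
  letI : Algebra (Trunc O n) (IsLocalRing.ResidueField O) := (truncToResidue O hn).toAlgebra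
  haveI : IsScalarTower W (Trunc O n) (IsLocalRing.ResidueField O) :=
    IsScalarTower.of_algebraMap_eq (fun w => rfl)
  haveI : IsScalarTower O (Trunc O n) (IsLocalRing.ResidueField O) :=
    IsScalarTower.of_algebraMap_eq (fun w => rfl)
  have hs : Function.Surjective (algebraMap (Trunc O n) (IsLocalRing.ResidueField O)) :=
    truncToResidue_surjective O hn
  have hnil : IsNilpotent (RingHom.ker (algebraMap (Trunc O n) (IsLocalRing.ResidueField O))) :=
    isNilpotent_ker_truncToResidue O hn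
  -- the truncated module
  set Mn := M.baseChange (Trunc O n) with hMn
  have hMnL : Mn.IsLine := baseChange_isLine (Trunc O n) M hM
  have hmap : PicX.map c0 O (Trunc O n) (LinePic.mk (c0.baseChange O) M hM)
      = LinePic.mk (c0.baseChange (Trunc O n)) Mn hMnL :=
    PicX.map_mk_baseChange c0 O (Trunc O n) M hM
  have hy1 : PicX.map c0 (Trunc O n) (IsLocalRing.ResidueField O)
      (LinePic.mk (c0.baseChange (Trunc O n)) Mn hMnL) = 1 := by
    rw [← hmap, PicX.map_comp]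
    exact hy
  rw [LinePic.one_def] at hy1
  obtain ⟨hunit⟩ := PicX.exists_liftData_of_map_eq c0 (Trunc O n) (IsLocalRing.ResidueField O)
    hMnL isLine_unit hy1
  obtain ⟨⟨e0⟩, ⟨e1⟩⟩ := exists_triv_of_liftData_unit (Trunc O n) (IsLocalRing.ResidueField O)
    hs hnil hMnL hunit
  -- surjectivity of the chart maps
  have hsO : Function.Surjective (algebraMap O (Trunc O n)) := Ideal.Quotient.mk_surjective
  have hs0 : Function.Surjective (algebraMap (O ⊗[W] B0) (Trunc O n ⊗[W] B0)) :=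
    algebraMap_left_surjective W O (Trunc O n) B0 hsO
  have hs1 : Function.Surjective (algebraMap (O ⊗[W] B1) (Trunc O n ⊗[W] B1)) :=
    algebraMap_left_surjective W O (Trunc O n) B1 hsO
  -- representatives
  let h := baseChange_liftData (Trunc O n) M
  obtain ⟨m0, hm0⟩ := exists_rep0 h e0 hs0
  obtain ⟨m1, hm1⟩ := exists_rep1 h e1 hs1
  haveI := hM.inv0
  haveI := hM.inv1
  obtain ⟨s0, hs01, hs0N⟩ := exists_smul_eq_smul_of_generates hs0 m0 (generates_rep0 h e0 hm0)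
  obtain ⟨s1, hs11, hs1N⟩ := exists_smul_eq_smul_of_generates hs1 m1 (generates_rep1 h e1 hm1)
  obtain ⟨b, hb⟩ := exists_overlap_rel O M hs0N (M.r1 m1)
  refine ⟨m0, m1, s0, s1, b, transUnit Mn e0 e1, hs01, hs11, hs0N, hs1N, hb, ?_, ?_, ?_⟩
  · intro hnt
    exact ⟨r0_rep_ne_zero h e0 hm0, r1_rep_ne_zero h e1 hm1⟩
  · rw [hmap]
    exact exists_cechClass_eq_of_triv (c0.baseChange (Trunc O n)) Mn hMnL e0 e1
  · exact transUnit_mul_of_rel h e0 e1 hm0 hm1 hb

end Fermat.Agent.T1B.Cmp15
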