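/-
T1B (S44), brick CMP (helper15), part A: the "vertical" algebra.  Mathlib only.

In a domain `A` with a prime element `ϖ`:
* `exists_pow_mul_of_mul_eq` : `x * x' = ϖ ^ N * u`, `ϖ ∤ u` ⟹ `x = ϖ ^ a * w`, `x' = ϖ ^ b * w'`,
  `a + b = N`, `w * w' = u`  (a unit of `A[1/(ϖ u)]` is a power of `ϖ` times a unit of `A[1/u]`);
* `eq_of_pow_mul_eq_pow_mul` : `ϖ ^ e * u = ϖ ^ e' * u'`, `ϖ ∤ u`, `ϖ ∤ u'` ⟹ `e = e'`, `u = u'`;
* `not_dvd_of_mul_eq_of_sub_one` : a divisor of an element `≡ 1 mod ϖ` is prime to `ϖ`.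
-/
import Mathlib

set_option autoImplicit false

namespace Fermat.Agent.T1B.Cmp15

section Prime

variable {A : Type*} [CommRing A] [IsDomain A] {ϖ : A}

/-- In a domain with prime element `ϖ`: a factorisation `x * x' = ϖ ^ N * u` with `ϖ ∤ u` splits. -/
theorem exists_pow_mul_of_mul_eq (hϖ : Prime ϖ) :
    ∀ (N : ℕ) (x x' u : A), x * x' = ϖ ^ N * u → ¬ ϖ ∣ u →
      ∃ (a b : ℕ) (w w' : A), a + b = N ∧ x = ϖ ^ a * w ∧ x' = ϖ ^ b * w' ∧ w * w' = u := by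
  intro N
  induction N with
  | zero =>
    intro x x' u h _
    exact ⟨0, 0, x, x', rfl, by simp, by simp, by simpa using h⟩
  | succ N ih =>
    intro x x' u h hu
    have hd : ϖ ∣ x * x' := ⟨ϖ ^ N * u, by rw [h]; ring⟩
    rcases hϖ.dvd_or_dvd hd with ⟨x1, rfl⟩ | ⟨x1, rfl⟩
    · have h1 : x1 * x' = ϖ ^ N * u := by
        apply mul_left_cancel₀ hϖ.ne_zero
        rw [← mul_assoc, h]
        ring
      obtain ⟨a, b, w, w', hab, hx, hx', hw⟩ := ih x1 x' u h1 hu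
      exact ⟨a + 1, b, w, w', by omega, by rw [hx]; ring, hx', hw⟩
    · have h1 : x * x1 = ϖ ^ N * u := by
        apply mul_left_cancel₀ hϖ.ne_zero
        have h2 : ϖ * (x * x1) = x * (ϖ * x1) := by ring
        rw [h2, h]
        ring
      obtain ⟨a, b, w, w', hab, hx, hx', hw⟩ := ih x x1 u h1 hu
      exact ⟨a, b + 1, w, w', by omega, hx, by rw [hx']; ring, hw⟩

/-- Comparison of `ϖ`-adic decompositions. -/
theorem eq_of_pow_mul_eq_pow_mul (hϖ : Prime ϖ) {e e' : ℕ} {u u' : A}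
    (h : ϖ ^ e * u = ϖ ^ e' * u') (hu : ¬ ϖ ∣ u) (hu' : ¬ ϖ ∣ u') : e = e' ∧ u = u' := by
  have key : ∀ (e k : ℕ) (u u' : A), ϖ ^ e * u = ϖ ^ (e + k) * u' → ¬ ϖ ∣ u → k = 0 ∧ u = u' := by
    intro e k u u' h hu
    have h1 : u = ϖ ^ k * u' := by
      apply mul_left_cancel₀ (pow_ne_zero e hϖ.ne_zero)
      rw [h]
      ring
    rcases Nat.eq_zero_or_pos k with hk | hk
    · subst hk
      exact ⟨rfl, by simpa using h1⟩
    · exfalso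
      apply hu
      rw [h1]
      exact Dvd.dvd.mul_right (dvd_pow_self ϖ hk.ne') u'
  rcases le_total e e' with hle | hle
  · obtain ⟨k, rfl⟩ := Nat.exists_eq_add_of_le hle
    obtain ⟨hk, huu⟩ := key e k u u' h hu
    exact ⟨by omega, huu⟩
  · obtain ⟨k, rfl⟩ := Nat.exists_eq_add_of_le hle
    obtain ⟨hk, huu⟩ := key e' k u' u h.symm hu'
    exact ⟨by omega, huu.symm⟩

omit [IsDomain A] in
/-- A divisor of an element `≡ 1 mod ϖ` is prime to `ϖ`. -/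
theorem not_dvd_of_mul_eq_of_sub_one (hϖ : Prime ϖ) {w w' σ : A} (h : w * w' = σ)
    (hσ : ϖ ∣ σ - 1) : ¬ ϖ ∣ w := by
  intro hw
  have h1 : ϖ ∣ σ := by
    rw [← h]
    exact Dvd.dvd.mul_right hw w'
  have h2 : ϖ ∣ 1 := by
    have := dvd_sub h1 hσ
    simpa using this
  exact hϖ.not_isUnit (isUnit_of_dvd_one h2)

omit [IsDomain A] in
theorem not_dvd_of_sub_one (hϖ : Prime ϖ) {σ : A} (hσ : ϖ ∣ σ - 1) : ¬ ϖ ∣ σ :=
  not_dvd_of_mul_eq_of_sub_one hϖ (mul_one σ) hσ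

omit [IsDomain A] in
theorem not_dvd_mul (hϖ : Prime ϖ) {a b : A} (ha : ¬ ϖ ∣ a) (hb : ¬ ϖ ∣ b) : ¬ ϖ ∣ a * b := by
  intro h
  rcases hϖ.dvd_or_dvd h with h | h
  · exact ha h
  · exact hb h

omit [IsDomain A] in
theorem not_dvd_of_mul_eq {w w' u : A} (h : w * w' = u) (hu : ¬ ϖ ∣ u) : ¬ ϖ ∣ w := fun hd =>
  hu (by rw [← h]; exact Dvd.dvd.mul_right hd w')

omit [IsDomain A] in
theorem not_dvd_of_isUnit (hϖ : Prime ϖ) {ε : A} (hε : IsUnit ε) : ¬ ϖ ∣ ε := fun h =>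
  hϖ.not_isUnit (isUnit_of_dvd_unit h hε)

/-- **Chart lemma.**  `κ : A → F'` an embedding into a field, `n, h, ν ∈ F'` with `ν n = κ σ`,
`σ ≡ 1 mod ϖ`.  If `n h` and `ν h⁻¹` both lie in `A[1/ϖ]` (numerators `z`, `z'`), then the numerator
`z` of `n h` is a power of `ϖ` times an element `w` prime to `ϖ` dividing `σ` up to units. -/
theorem chart_decomp (hϖ : Prime ϖ) {F' : Type*} [Field F'] (κ : A →+* F')
    (hκ : Function.Injective κ) {n h ν : F'} (hh : h ≠ 0) {σ : A} (hσ : ϖ ∣ σ - 1)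
    (hν : ν * n = κ σ) {k k' : ℕ} {ε ε' : A} (hε : IsUnit ε) (hε' : IsUnit ε') {z z' : A}
    (hz : κ z = κ (ε * ϖ ^ k) * (n * h)) (hz' : κ z' = κ (ε' * ϖ ^ k') * (ν * h⁻¹)) :
    ∃ (a : ℕ) (w w' : A), z = ϖ ^ a * w ∧ ¬ ϖ ∣ w ∧ w * w' = ε * ε' * σ := by
  have hprod : z * z' = ϖ ^ (k + k') * (ε * ε' * σ) := by
    apply hκ
    calc κ (z * z') = κ (ε * ϖ ^ k) * κ (ε' * ϖ ^ k') * (ν * n) * (h * h⁻¹) := by
          rw [map_mul, hz, hz']; ring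
      _ = κ (ϖ ^ (k + k') * (ε * ε' * σ)) := by
          rw [hν, mul_inv_cancel₀ hh, mul_one, ← map_mul, ← map_mul]
          congr 1
          ring
  have hnd : ¬ ϖ ∣ ε * ε' * σ :=
    not_dvd_mul hϖ (not_dvd_mul hϖ (not_dvd_of_isUnit hϖ hε) (not_dvd_of_isUnit hϖ hε'))
      (not_dvd_of_sub_one hϖ hσ)
  obtain ⟨a, b, w, w', -, hzw, -, hww⟩ := exists_pow_mul_of_mul_eq hϖ (k + k') z z' _ hprod hnd
  refine ⟨a, w, w', hzw, fun hd => hnd ?_, hww⟩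
  rw [← hww]
  exact Dvd.dvd.mul_right hd w'

/-- **Overlap lemma.**  Two chart decompositions and the relation `κ S₀ * n₁ = κ β * n₀` on the
overlap force equality of the `ϖ`-free parts. -/
theorem overlap_eq (hϖ : Prime ϖ) {F' : Type*} [Field F'] (κ : A →+* F')
    (hκ : Function.Injective κ) {n0 n1 h : F'} {S0 β : A} (hrel : κ S0 * n1 = κ β * n0)
    {a0 a1 k0 k1 : ℕ} {E0 E1 X0 X1 : A}
    (hA0 : κ (ϖ ^ a0 * X0) = κ (E0 * ϖ ^ k0) * (n0 * h))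
    (hA1 : κ (ϖ ^ a1 * X1) = κ (E1 * ϖ ^ k1) * (n1 * h))
    (hnd : ¬ ϖ ∣ E0 * S0 * X1) (hnd' : ¬ ϖ ∣ E1 * β * X0) :
    E0 * S0 * X1 = E1 * β * X0 := by
  have hkey : ϖ ^ (a1 + k0) * (E0 * S0 * X1) = ϖ ^ (a0 + k1) * (E1 * β * X0) := by
    apply hκ
    calc κ (ϖ ^ (a1 + k0) * (E0 * S0 * X1))
        = κ (E0 * ϖ ^ k0) * κ S0 * κ (ϖ ^ a1 * X1) := by
          rw [← map_mul, ← map_mul]; congr 1; ring
      _ = κ (E0 * ϖ ^ k0) * κ (E1 * ϖ ^ k1) * (κ S0 * n1) * h := by rw [hA1]; ring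
      _ = κ (E1 * ϖ ^ k1) * κ β * (κ (E0 * ϖ ^ k0) * (n0 * h)) := by rw [hrel]; ring
      _ = κ (E1 * ϖ ^ k1) * κ β * κ (ϖ ^ a0 * X0) := by rw [hA0]
      _ = κ (ϖ ^ (a0 + k1) * (E1 * β * X0)) := by
          rw [← map_mul, ← map_mul]; congr 1; ring
  exact (eq_of_pow_mul_eq_pow_mul hϖ hkey hnd hnd').2

end Prime

section DVR

variable {O : Type*} [CommRing O] [IsDomain O] [IsDiscreteValuationRing O] {ϖ : O}
  {A : Type*} [CommRing A] [IsDomain A] [Algebra O A]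

/-- **Chart lemma over a DVR**: membership in `A[1/ϖ]` is expressed with nonzero constants of `O`. -/
theorem chart_decomp_dvr (hϖ : Irreducible ϖ) (hp : Prime (algebraMap O A ϖ))
    {F' : Type*} [Field F'] (κ : A →+* F') (hκ : Function.Injective κ) {n h ν : F'} (hh : h ≠ 0)
    {σ : A} (hσ : algebraMap O A ϖ ∣ σ - 1) (hν : ν * n = κ σ)
    (h1 : ∃ c : O, c ≠ 0 ∧ ∃ z : A, κ z = κ (algebraMap O A c) * (n * h))
    (h2 : ∃ c : O, c ≠ 0 ∧ ∃ z : A, κ z = κ (algebraMap O A c) * (ν * h⁻¹)) :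
    ∃ (a k : ℕ) (ε υ : Oˣ) (w w' : A),
      κ (algebraMap O A ϖ ^ a * w) = κ (algebraMap O A ((ε : O) * ϖ ^ k)) * (n * h) ∧
      w * w' = algebraMap O A (υ : O) * σ := by
  obtain ⟨c, hc, z, hz⟩ := h1
  obtain ⟨c', hc', z', hz'⟩ := h2
  obtain ⟨k, ε, rfl⟩ := IsDiscreteValuationRing.eq_unit_mul_pow_irreducible hc hϖ
  obtain ⟨k', ε', rfl⟩ := IsDiscreteValuationRing.eq_unit_mul_pow_irreducible hc' hϖ
  have hε : IsUnit (algebraMap O A (ε : O)) := ε.isUnit.map _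
  have hε' : IsUnit (algebraMap O A (ε' : O)) := ε'.isUnit.map _
  have hz1 : κ z = κ (algebraMap O A (ε : O) * algebraMap O A ϖ ^ k) * (n * h) := by
    rw [hz, map_mul, map_pow]
  have hz1' : κ z' = κ (algebraMap O A (ε' : O) * algebraMap O A ϖ ^ k') * (ν * h⁻¹) := by
    rw [hz', map_mul, map_pow]
  obtain ⟨a, w, w', hzw, -, hww⟩ := chart_decomp hp κ hκ hh hσ hν hε hε' hz1 hz1'
  refine ⟨a, k, ε, ε * ε', w, w', ?_, ?_⟩
  · rw [← hzw, hz]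
  · rw [hww, Units.val_mul, map_mul]

end DVR

end Fermat.Agent.T1B.Cmp15
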