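/-
T1B (S44), brick CMP (helper15), part B3: **the norm of the truncated cocycle is a coboundary**.

Setting: hub vocabulary (`c0`, `D` the source two-chart datum; `D'` the target Čech datum;
`S : NormSys D D'` a Čech norm system; `O` a DVR over `W` with uniformiser `ϖ`).  `M` a line
two-chart module on `X_O` with class in `J̃1(O)`.

GENERIC FIBRE DATA (`GenericHyp`): fields `F ⊇ O ⊗ B01`, `F' ⊇ O ⊗ B01'`, a multiplicative map
`NF : F → F'` extending the norm `S.N01 O`, a rational trivialisation `θ : M.N01 → F` and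
`h ∈ F'ˣ` such that, for `j = 0, 1`,
* (int)  `NF (θ x) * h ∈ (O ⊗ B_j')[1/ϖ]` for `x ∈ M.N_j`,
* (inv)  `NF g * h⁻¹ ∈ (O ⊗ B_j')[1/ϖ]` for `g ∈ F` with `g • θ (M.N_j) ⊆ O ⊗ B_j`
("the norm of the generic fibre of `M` is the principal divisor of `h⁻¹`").

TARGET HYPOTHESES (`TargetHyp`): `ϖ` is a prime element of the three target chart rings over `O`
(integral special fibre), and restriction to the overlap is injective.  (That the chart rings are
domains follows from `GenericHyp.ι'_inj`.)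

RESULT `norm_transUnit`: for the level `n` data of `LevelRep.exists_level_rep`, the norm of the
transition unit `ū` is a product of units of the two target charts over `O/𝔪^n`.
-/
import Mathlib
import Fermat.Agent.T1B.Toric11.NormSys
import Fermat.Agent.T1B.Toric11.TowerU
import Fermat.Agent.T1B.Cmp15.Vertical
import Fermat.Agent.T1B.Cmp15.LevelRep

set_option autoImplicit false
set_option linter.unusedSectionVars false
set_option linter.style.haveILetI false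
set_option maxHeartbeats 1000000

open TensorProduct

noncomputable section

namespace Fermat.Agent.T1B.Cmp15

open Fermat.Agent.Jac Fermat.Agent.Jac.JSmooth85Alg Fermat.Agent.Jac.JGroup85Pic
open Fermat.Agent.Jac.LineOps39 Fermat.Agent.Jac.BaseChange75
open Fermat.Agent.T1.RedIface75 Fermat.Agent.T1.Red11 Fermat.Agent.T1.CechFormal70
open Fermat.Agent.T1B.Toric11
open scoped Fermat.Agent.Jac.BaseChange75

universe u

variable {W B0 B1 B01 B0' B1' B01' : Type u} [CommRing W]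
  [CommRing B0] [CommRing B1] [CommRing B01] [Algebra W B0] [Algebra W B1] [Algebra W B01]
  [Algebra B0 B01] [Algebra B1 B01] [IsScalarTower W B0 B01] [IsScalarTower W B1 B01]
  [CommRing B0'] [CommRing B1'] [CommRing B01'] [Algebra W B0'] [Algebra W B1'] [Algebra W B01']
  {g g' : ℕ}

/-- Hypotheses on the target charts over the DVR `O`: `ϖ` is a prime element of the three chart
rings (the special fibre of each chart is integral) and restriction to the overlap is injective.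
(The chart rings are then domains as soon as `O ⊗ B01'` embeds into a field, `GenericHyp.ι'_inj`.) -/
structure TargetHyp (D' : CechData W B0' B1' B01' g') (O : Type u) [CommRing O] [Algebra W O]
    (ϖ : O) : Prop where
  prime0 : Prime (algebraMap O (O ⊗[W] B0') ϖ)
  prime1 : Prime (algebraMap O (O ⊗[W] B1') ϖ)
  prime01 : Prime (algebraMap O (O ⊗[W] B01') ϖ)
  inj0 : Function.Injective (D'.pkg O).r0
  inj1 : Function.Injective (D'.pkg O).r1

/-- Generic fibre data: "the norm of the generic fibre of `M` is principal, generated by `h⁻¹`". -/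
structure GenericHyp {D : CechData W B0 B1 B01 g} {D' : CechData W B0' B1' B01' g'}
    (S : NormSys D D') (O : Type u) [CommRing O] [Algebra W O]
    (M : QC2 O (O ⊗[W] B0) (O ⊗[W] B1) (O ⊗[W] B01))
    {F F' : Type*} [Field F] [Field F'] (ι : O ⊗[W] B01 →+* F) (ι' : O ⊗[W] B01' →+* F')
    (NF : F →* F') (θ : M.N01 →+ F) (h : F') : Prop where
  ι'_inj : Function.Injective ι'
  NF_ι : ∀ x, NF (ι x) = ι' (S.N01 O x)
  θ_smul : ∀ (c : O ⊗[W] B01) (x : M.N01), θ (c • x) = ι c * θ x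
  θ_inj : ∀ x, θ x = 0 → x = 0
  h_ne : h ≠ 0
  int0 : ∀ x : M.N0, ∃ c : O, c ≠ 0 ∧ ∃ z : O ⊗[W] B0',
    ι' ((D'.pkg O).r0 z) = ι' (algebraMap O (O ⊗[W] B01') c) * (NF (θ (M.r0 x)) * h)
  int1 : ∀ x : M.N1, ∃ c : O, c ≠ 0 ∧ ∃ z : O ⊗[W] B1',
    ι' ((D'.pkg O).r1 z) = ι' (algebraMap O (O ⊗[W] B01') c) * (NF (θ (M.r1 x)) * h)
  inv0 : ∀ γ : F, (∀ x : M.N0, ∃ a : O ⊗[W] B0,
      γ * θ (M.r0 x) = ι (algebraMap (O ⊗[W] B0) (O ⊗[W] B01) a)) →
    ∃ c : O, c ≠ 0 ∧ ∃ z : O ⊗[W] B0',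
      ι' ((D'.pkg O).r0 z) = ι' (algebraMap O (O ⊗[W] B01') c) * (NF γ * h⁻¹)
  inv1 : ∀ γ : F, (∀ x : M.N1, ∃ a : O ⊗[W] B1,
      γ * θ (M.r1 x) = ι (algebraMap (O ⊗[W] B1) (O ⊗[W] B01) a)) →
    ∃ c : O, c ≠ 0 ∧ ∃ z : O ⊗[W] B1',
      ι' ((D'.pkg O).r1 z) = ι' (algebraMap O (O ⊗[W] B01') c) * (NF γ * h⁻¹)

section Red

variable (O : Type u) [CommRing O] [Algebra W O] (I : Ideal O)

/-- the structure map `O ⊗ B → O/I ⊗ B` is `mk ⊗ id`. -/
theorem algebraMap_left_eq_redI (B : Type u) [CommRing B] [Algebra W B] (x : O ⊗[W] B) :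
    algebraMap (O ⊗[W] B) ((O ⧸ I) ⊗[W] B) x = CechData.redI O I B x := by
  induction x using TensorProduct.induction_on with
  | zero => simp
  | tmul a b => simp
  | add x y hx hy => rw [map_add, map_add, hx, hy]

end Red

section RedPkg

variable {C0 C1 C01 : Type u} [CommRing C0] [CommRing C1] [CommRing C01]
  [Algebra W C0] [Algebra W C1] [Algebra W C01] {gC : ℕ}
  (O : Type u) [CommRing O] [Algebra W O]

/-- reduction modulo `I` of `(D.pkg O).r0`. -/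
theorem redI_r0 (D : CechData W C0 C1 C01 gC) (I : Ideal O) (x : O ⊗[W] C0) :
    CechData.redI O I C01 ((D.pkg O).r0 x) = (D.pkg (O ⧸ I)).r0 (CechData.redI O I C0 x) :=
  (D.pkgHom (Ideal.Quotient.mkₐ W I)).r0_comm x

theorem redI_r1 (D : CechData W C0 C1 C01 gC) (I : Ideal O) (x : O ⊗[W] C1) :
    CechData.redI O I C01 ((D.pkg O).r1 x) = (D.pkg (O ⧸ I)).r1 (CechData.redI O I C1 x) :=
  (D.pkgHom (Ideal.Quotient.mkₐ W I)).r1_comm x

theorem redI_algebraMap (B : Type u) [CommRing B] [Algebra W B] (I : Ideal O) (c : O) :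
    CechData.redI O I B (algebraMap O (O ⊗[W] B) c)
      = algebraMap (O ⧸ I) ((O ⧸ I) ⊗[W] B) (Ideal.Quotient.mk I c) := by
  simp [Algebra.TensorProduct.algebraMap_apply]

end RedPkg

section Main

variable (D : CechData W B0 B1 B01 g) (D' : CechData W B0' B1' B01' g')
  (hρ0 : ∀ x, D.ρ0 x = algebraMap B0 B01 x) (hρ1 : ∀ x, D.ρ1 x = algebraMap B1 B01 x)
  (S : NormSys D D')
  (O : Type u) [CommRing O] [IsDomain O] [IsDiscreteValuationRing O] [Algebra W O]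

local notation "𝔪O" => IsLocalRing.maximalIdeal O

/-- an element reducing to `1` modulo `𝔪^n` (`n ≠ 0`) has norm `≡ 1 mod ϖ`. -/
theorem dvd_N0_sub_one {ϖ : O} (hϖ : Irreducible ϖ) {n : ℕ} (hn : n ≠ 0) {s0 : O ⊗[W] B0}
    (hs0 : algebraMap (O ⊗[W] B0) (Trunc O n ⊗[W] B0) s0 = 1) :
    algebraMap O (O ⊗[W] B0') ϖ ∣ S.N0 O s0 - 1 := by
  have h1 : CechData.redI O (𝔪O ^ n) B0' (S.N0 O s0 - 1) = 0 := by
    rw [map_sub, map_one, sub_eq_zero]
    have h2 := S.bc0 (Ideal.Quotient.mkₐ W (𝔪O ^ n)) s0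
    have h3 : Algebra.TensorProduct.map (Ideal.Quotient.mkₐ W (𝔪O ^ n)) (AlgHom.id W B0) s0 = 1 := by
      have := algebraMap_left_eq_redI O (𝔪O ^ n) B0 s0
      rw [hs0] at this
      exact this.symm
    rw [h3, map_one] at h2
    exact h2.symm
  rw [← CechData.mem_eI_iff] at h1
  have h4 : eI (𝔪O ^ n) (O ⊗[W] B0') ≤ Ideal.span {algebraMap O (O ⊗[W] B0') ϖ} := by
    unfold eI
    rw [hϖ.maximalIdeal_eq, Ideal.span_singleton_pow, Ideal.map_span, Set.image_singleton,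
      Ideal.span_singleton_le_span_singleton, map_pow]
    exact dvd_pow_self _ hn
  exact Ideal.mem_span_singleton.1 (h4 h1)

theorem dvd_N1_sub_one {ϖ : O} (hϖ : Irreducible ϖ) {n : ℕ} (hn : n ≠ 0) {s1 : O ⊗[W] B1}
    (hs1 : algebraMap (O ⊗[W] B1) (Trunc O n ⊗[W] B1) s1 = 1) :
    algebraMap O (O ⊗[W] B1') ϖ ∣ S.N1 O s1 - 1 := by
  have h1 : CechData.redI O (𝔪O ^ n) B1' (S.N1 O s1 - 1) = 0 := by
    rw [map_sub, map_one, sub_eq_zero]
    have h2 := S.bc1 (Ideal.Quotient.mkₐ W (𝔪O ^ n)) s1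
    have h3 : Algebra.TensorProduct.map (Ideal.Quotient.mkₐ W (𝔪O ^ n)) (AlgHom.id W B1) s1 = 1 := by
      have := algebraMap_left_eq_redI O (𝔪O ^ n) B1 s1
      rw [hs1] at this
      exact this.symm
    rw [h3, map_one] at h2
    exact h2.symm
  rw [← CechData.mem_eI_iff] at h1
  have h4 : eI (𝔪O ^ n) (O ⊗[W] B1') ≤ Ideal.span {algebraMap O (O ⊗[W] B1') ϖ} := by
    unfold eI
    rw [hϖ.maximalIdeal_eq, Ideal.span_singleton_pow, Ideal.map_span, Set.image_singleton,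
      Ideal.span_singleton_le_span_singleton, map_pow]
    exact dvd_pow_self _ hn
  exact Ideal.mem_span_singleton.1 (h4 h1)

variable {D D' S O}
variable {ϖ : O} {M : QC2 O (O ⊗[W] B0) (O ⊗[W] B1) (O ⊗[W] B01)}
  {F F' : Type*} [Field F] [Field F'] {ι : O ⊗[W] B01 →+* F} {ι' : O ⊗[W] B01' →+* F'}
  {NF : F →* F'} {θ : M.N01 →+ F} {h : F'}

include hρ0 in
/-- **Chart 0**: the norm of the local generator `m₀`, times `h`, is `ϖ^(a-k)` times an element `w`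
of `O ⊗ B0'` dividing `N(s₀)` up to a unit of `O`. -/
theorem chart0 (hϖ : Irreducible ϖ) (hT : TargetHyp D' O ϖ) (hG : GenericHyp S O M ι ι' NF θ h)
    {n : ℕ} (hn : n ≠ 0) {m0 : M.N0} {s0 : O ⊗[W] B0} (hm0 : M.r0 m0 ≠ 0)
    (hs0 : algebraMap (O ⊗[W] B0) (Trunc O n ⊗[W] B0) s0 = 1)
    (hs0N : ∀ x : M.N0, ∃ c : O ⊗[W] B0, s0 • x = c • m0) :
    ∃ (a k : ℕ) (ε υ : Oˣ) (w w' : O ⊗[W] B0'),
      ι' ((D'.pkg O).r0 (algebraMap O (O ⊗[W] B0') ϖ ^ a * w))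
        = ι' ((D'.pkg O).r0 (algebraMap O (O ⊗[W] B0') ((ε : O) * ϖ ^ k)))
          * (NF (θ (M.r0 m0)) * h) ∧
      w * w' = algebraMap O (O ⊗[W] B0') (υ : O) * S.N0 O s0 := by
  set t0 : F := θ (M.r0 m0) with ht0
  have ht0ne : t0 ≠ 0 := fun hz => hm0 (hG.θ_inj _ hz)
  let κ : O ⊗[W] B0' →+* F' := ι'.comp ((D'.pkg O).r0 : O ⊗[W] B0' →+* O ⊗[W] B01')
  have hκ : Function.Injective κ := hG.ι'_inj.comp hT.inj0
  haveI : IsDomain (O ⊗[W] B0') := Function.Injective.isDomain κ hκ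
  have hθ0 : ∀ (c : O ⊗[W] B0) (x : M.N0),
      θ (M.r0 (c • x)) = ι (algebraMap (O ⊗[W] B0) (O ⊗[W] B01) c) * θ (M.r0 x) := by
    intro c x
    rw [map_smul, ← algebraMap_smul (O ⊗[W] B01) c (M.r0 x), hG.θ_smul]
  set γ : F := ι (algebraMap (O ⊗[W] B0) (O ⊗[W] B01) s0) * t0⁻¹ with hγ
  have hν : NF γ * NF t0 = κ (S.N0 O s0) := by
    rw [← map_mul, hγ, mul_assoc, inv_mul_cancel₀ ht0ne, mul_one, hG.NF_ι,
      ← Fermat.Agent.T1.Red11.pkg_r0_eq_algebraMap D hρ0 O s0, S.res0]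
    rfl
  have hprem : ∀ x : M.N0, ∃ a : O ⊗[W] B0,
      γ * θ (M.r0 x) = ι (algebraMap (O ⊗[W] B0) (O ⊗[W] B01) a) := by
    intro x
    obtain ⟨c, hc⟩ := hs0N x
    refine ⟨c, ?_⟩
    have h1 := hθ0 s0 x
    rw [hc, hθ0 c m0, ← ht0] at h1
    rw [hγ, mul_assoc, mul_comm t0⁻¹, ← mul_assoc, ← h1, mul_assoc, mul_inv_cancel₀ ht0ne,
      mul_one]
  have h1 : ∃ c : O, c ≠ 0 ∧ ∃ z : O ⊗[W] B0',
      κ z = κ (algebraMap O (O ⊗[W] B0') c) * (NF t0 * h) := by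
    obtain ⟨c, hc, z, hz⟩ := hG.int0 m0
    refine ⟨c, hc, z, ?_⟩
    show ι' ((D'.pkg O).r0 z) = ι' ((D'.pkg O).r0 (algebraMap O (O ⊗[W] B0') c)) * _
    rw [AlgHom.commutes]
    exact hz
  have h2 : ∃ c : O, c ≠ 0 ∧ ∃ z : O ⊗[W] B0',
      κ z = κ (algebraMap O (O ⊗[W] B0') c) * (NF γ * h⁻¹) := by
    obtain ⟨c, hc, z, hz⟩ := hG.inv0 γ hprem
    refine ⟨c, hc, z, ?_⟩
    show ι' ((D'.pkg O).r0 z) = ι' ((D'.pkg O).r0 (algebraMap O (O ⊗[W] B0') c)) * _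
    rw [AlgHom.commutes]
    exact hz
  exact chart_decomp_dvr hϖ hT.prime0 κ hκ hG.h_ne (dvd_N0_sub_one D D' S O hϖ hn hs0) hν h1 h2

include hρ1 in
/-- **Chart 1**: the norm of the local generator `m₁`, times `h`, is `ϖ^(a-k)` times an element `w`
of `O ⊗ B1'` dividing `N(s₁)` up to a unit of `O`. -/
theorem chart1 (hϖ : Irreducible ϖ) (hT : TargetHyp D' O ϖ) (hG : GenericHyp S O M ι ι' NF θ h)
    {n : ℕ} (hn : n ≠ 0) {m1 : M.N1} {s1 : O ⊗[W] B1} (hm1 : M.r1 m1 ≠ 0)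
    (hs1 : algebraMap (O ⊗[W] B1) (Trunc O n ⊗[W] B1) s1 = 1)
    (hs1N : ∀ x : M.N1, ∃ c : O ⊗[W] B1, s1 • x = c • m1) :
    ∃ (a k : ℕ) (ε υ : Oˣ) (w w' : O ⊗[W] B1'),
      ι' ((D'.pkg O).r1 (algebraMap O (O ⊗[W] B1') ϖ ^ a * w))
        = ι' ((D'.pkg O).r1 (algebraMap O (O ⊗[W] B1') ((ε : O) * ϖ ^ k)))
          * (NF (θ (M.r1 m1)) * h) ∧
      w * w' = algebraMap O (O ⊗[W] B1') (υ : O) * S.N1 O s1 := by
  set t1 : F := θ (M.r1 m1) with ht1
  have ht1ne : t1 ≠ 0 := fun hz => hm1 (hG.θ_inj _ hz)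
  let κ : O ⊗[W] B1' →+* F' := ι'.comp ((D'.pkg O).r1 : O ⊗[W] B1' →+* O ⊗[W] B01')
  have hκ : Function.Injective κ := hG.ι'_inj.comp hT.inj1
  haveI : IsDomain (O ⊗[W] B1') := Function.Injective.isDomain κ hκ
  have hθ1 : ∀ (c : O ⊗[W] B1) (x : M.N1),
      θ (M.r1 (c • x)) = ι (algebraMap (O ⊗[W] B1) (O ⊗[W] B01) c) * θ (M.r1 x) := by
    intro c x
    rw [map_smul, ← algebraMap_smul (O ⊗[W] B01) c (M.r1 x), hG.θ_smul]
  set γ : F := ι (algebraMap (O ⊗[W] B1) (O ⊗[W] B01) s1) * t1⁻¹ with hγ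
  have hν : NF γ * NF t1 = κ (S.N1 O s1) := by
    rw [← map_mul, hγ, mul_assoc, inv_mul_cancel₀ ht1ne, mul_one, hG.NF_ι,
      ← Fermat.Agent.T1.Red11.pkg_r1_eq_algebraMap D hρ1 O s1, S.res1]
    rfl
  have hprem : ∀ x : M.N1, ∃ a : O ⊗[W] B1,
      γ * θ (M.r1 x) = ι (algebraMap (O ⊗[W] B1) (O ⊗[W] B01) a) := by
    intro x
    obtain ⟨c, hc⟩ := hs1N x
    refine ⟨c, ?_⟩
    have h1 := hθ1 s1 x
    rw [hc, hθ1 c m1, ← ht1] at h1
    rw [hγ, mul_assoc, mul_comm t1⁻¹, ← mul_assoc, ← h1, mul_assoc, mul_inv_cancel₀ ht1ne,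
      mul_one]
  have h1 : ∃ c : O, c ≠ 0 ∧ ∃ z : O ⊗[W] B1',
      κ z = κ (algebraMap O (O ⊗[W] B1') c) * (NF t1 * h) := by
    obtain ⟨c, hc, z, hz⟩ := hG.int1 m1
    refine ⟨c, hc, z, ?_⟩
    show ι' ((D'.pkg O).r1 z) = ι' ((D'.pkg O).r1 (algebraMap O (O ⊗[W] B1') c)) * _
    rw [AlgHom.commutes]
    exact hz
  have h2 : ∃ c : O, c ≠ 0 ∧ ∃ z : O ⊗[W] B1',
      κ z = κ (algebraMap O (O ⊗[W] B1') c) * (NF γ * h⁻¹) := by
    obtain ⟨c, hc, z, hz⟩ := hG.inv1 γ hprem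
    refine ⟨c, hc, z, ?_⟩
    show ι' ((D'.pkg O).r1 z) = ι' ((D'.pkg O).r1 (algebraMap O (O ⊗[W] B1') c)) * _
    rw [AlgHom.commutes]
    exact hz
  exact chart_decomp_dvr hϖ hT.prime1 κ hκ hG.h_ne (dvd_N1_sub_one D D' S O hϖ hn hs1) hν h1 h2

include hρ0 hρ1 in
/-- **The norm of the truncated transition unit is a coboundary of units of the target charts.** -/
theorem norm_transUnit (hϖ : Irreducible ϖ) (hT : TargetHyp D' O ϖ)
    (hG : GenericHyp S O M ι ι' NF θ h) {n : ℕ} (hn : n ≠ 0)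
    {m0 : M.N0} {m1 : M.N1} {s0 : O ⊗[W] B0} {s1 : O ⊗[W] B1} {b : O ⊗[W] B01}
    {u : (Trunc O n ⊗[W] B01)ˣ}
    (hs0 : algebraMap (O ⊗[W] B0) (Trunc O n ⊗[W] B0) s0 = 1)
    (hs1 : algebraMap (O ⊗[W] B1) (Trunc O n ⊗[W] B1) s1 = 1)
    (hs0N : ∀ x : M.N0, ∃ c : O ⊗[W] B0, s0 • x = c • m0)
    (hs1N : ∀ x : M.N1, ∃ c : O ⊗[W] B1, s1 • x = c • m1)
    (hrel : algebraMap (O ⊗[W] B0) (O ⊗[W] B01) s0 • M.r1 m1 = b • M.r0 m0)
    (hm0 : M.r0 m0 ≠ 0) (hm1 : M.r1 m1 ≠ 0)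
    (hu : algebraMap (O ⊗[W] B01) (Trunc O n ⊗[W] B01)
        (algebraMap (O ⊗[W] B0) (O ⊗[W] B01) s0) * (u : Trunc O n ⊗[W] B01)
      = algebraMap (O ⊗[W] B01) (Trunc O n ⊗[W] B01) b)
    [Nontrivial (Trunc O n ⊗[W] B01')] :
    ∃ (w0 : (Trunc O n ⊗[W] B0')ˣ) (w1 : (Trunc O n ⊗[W] B1')ˣ),
      S.N01 (Trunc O n) (u : Trunc O n ⊗[W] B01)
          * (D'.pkg (Trunc O n)).r0 (w0 : Trunc O n ⊗[W] B0')
        = (D'.pkg (Trunc O n)).r1 (w1 : Trunc O n ⊗[W] B1') := by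
  obtain ⟨a0, k0, ε0, υ0, w0, w0', hA0, hw0⟩ := chart0 hρ0 hϖ hT hG hn hm0 hs0 hs0N
  obtain ⟨a1, k1, ε1, υ1, w1, w1', hA1, hw1⟩ := chart1 hρ1 hϖ hT hG hn hm1 hs1 hs1N
  haveI : IsDomain (O ⊗[W] B01') := Function.Injective.isDomain ι' hG.ι'_inj
  set I : Ideal O := 𝔪O ^ n with hI
  set ϖ01 : O ⊗[W] B01' := algebraMap O (O ⊗[W] B01') ϖ with hϖ01
  set E0 : O ⊗[W] B01' := algebraMap O (O ⊗[W] B01') (ε0 : O) with hE0
  set E1 : O ⊗[W] B01' := algebraMap O (O ⊗[W] B01') (ε1 : O) with hE1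
  set S0 : O ⊗[W] B01' := (D'.pkg O).r0 (S.N0 O s0) with hS0
  set β : O ⊗[W] B01' := S.N01 O b with hβ
  set X0 : O ⊗[W] B01' := (D'.pkg O).r0 w0 with hX0
  set X1 : O ⊗[W] B01' := (D'.pkg O).r1 w1 with hX1
  set t0 : F := θ (M.r0 m0) with ht0
  set t1 : F := θ (M.r1 m1) with ht1
  -- the relation on the overlap
  have hrelF : ι' S0 * NF t1 = ι' β * NF t0 := by
    have h1 := congrArg θ hrel
    rw [hG.θ_smul, hG.θ_smul] at h1
    have h2 := congrArg NF h1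
    rw [map_mul, map_mul, hG.NF_ι, hG.NF_ι,
      ← Fermat.Agent.T1.Red11.pkg_r0_eq_algebraMap D hρ0 O s0, S.res0] at h2
    exact h2
  -- the chart decompositions, on the overlap
  have hA0' : ι' (ϖ01 ^ a0 * X0) = ι' (E0 * ϖ01 ^ k0) * (NF t0 * h) := by
    have e1 : (D'.pkg O).r0 (algebraMap O (O ⊗[W] B0') ϖ ^ a0 * w0) = ϖ01 ^ a0 * X0 := by
      rw [map_mul, map_pow, (D'.pkg O).r0.commutes]
    have e2 : (D'.pkg O).r0 (algebraMap O (O ⊗[W] B0') ((ε0 : O) * ϖ ^ k0)) = E0 * ϖ01 ^ k0 := by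
      rw [(D'.pkg O).r0.commutes, map_mul, map_pow]
    rw [← e1, ← e2]
    exact hA0
  have hA1' : ι' (ϖ01 ^ a1 * X1) = ι' (E1 * ϖ01 ^ k1) * (NF t1 * h) := by
    have e1 : (D'.pkg O).r1 (algebraMap O (O ⊗[W] B1') ϖ ^ a1 * w1) = ϖ01 ^ a1 * X1 := by
      rw [map_mul, map_pow, (D'.pkg O).r1.commutes]
    have e2 : (D'.pkg O).r1 (algebraMap O (O ⊗[W] B1') ((ε1 : O) * ϖ ^ k1)) = E1 * ϖ01 ^ k1 := by
      rw [(D'.pkg O).r1.commutes, map_mul, map_pow]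
    rw [← e1, ← e2]
    exact hA1
  -- reductions
  have hred_s0 : CechData.redI O I B0 s0 = 1 := by
    rw [← algebraMap_left_eq_redI]; exact hs0
  have hred_s1 : CechData.redI O I B1 s1 = 1 := by
    rw [← algebraMap_left_eq_redI]; exact hs1
  have hred_N0 : CechData.redI O I B0' (S.N0 O s0) = 1 := by
    have h2 := S.bc0 (Ideal.Quotient.mkₐ W I) s0
    have h3 : Algebra.TensorProduct.map (Ideal.Quotient.mkₐ W I) (AlgHom.id W B0) s0 = 1 := hred_s0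
    rw [h3, map_one] at h2
    exact h2.symm
  have hred_N1 : CechData.redI O I B1' (S.N1 O s1) = 1 := by
    have h2 := S.bc1 (Ideal.Quotient.mkₐ W I) s1
    have h3 : Algebra.TensorProduct.map (Ideal.Quotient.mkₐ W I) (AlgHom.id W B1) s1 = 1 := hred_s1
    rw [h3, map_one] at h2
    exact h2.symm
  have hred_b : CechData.redI O I B01 b = (u : Trunc O n ⊗[W] B01) := by
    rw [← algebraMap_left_eq_redI, ← hu, algebraMap_left_eq_redI,
      ← Fermat.Agent.T1.Red11.pkg_r0_eq_algebraMap D hρ0 O s0, redI_r0, hred_s0, map_one, one_mul]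
  have hred_β : CechData.redI O I B01' β = S.N01 (Trunc O n) (u : Trunc O n ⊗[W] B01) := by
    have h2 := S.bc01 (Ideal.Quotient.mkₐ W I) b
    have h3 : Algebra.TensorProduct.map (Ideal.Quotient.mkₐ W I) (AlgHom.id W B01) b
        = (u : Trunc O n ⊗[W] B01) := hred_b
    rw [h3] at h2
    exact h2.symm
  have hred_S0 : CechData.redI O I B01' S0 = 1 := by
    rw [hS0, redI_r0, hred_N0, map_one]
  -- nilpotence of `ϖ` modulo `𝔪^n`
  have hnilϖ : (CechData.redI O I B01' ϖ01) ^ n = 0 := by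
    rw [hϖ01, redI_algebraMap, ← map_pow, ← map_pow]
    have : Ideal.Quotient.mk I (ϖ ^ n) = 0 := by
      rw [Ideal.Quotient.eq_zero_iff_mem, hI, hϖ.maximalIdeal_eq, Ideal.span_singleton_pow]
      exact Ideal.mem_span_singleton_self _
    rw [this, map_zero]
  have hnot_of_unit : ∀ x : O ⊗[W] B01', IsUnit (CechData.redI O I B01' x) → ¬ ϖ01 ∣ x := by
    rintro x hx ⟨c, rfl⟩
    rw [map_mul] at hx
    have h1 : IsUnit (CechData.redI O I B01' ϖ01) := isUnit_of_mul_isUnit_left hx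
    have h2 : IsUnit ((CechData.redI O I B01' ϖ01) ^ n) := h1.pow n
    rw [hnilϖ] at h2
    exact not_isUnit_zero h2
  -- divisibility facts
  have hE0u : IsUnit E0 := ε0.isUnit.map _
  have hE1u : IsUnit E1 := ε1.isUnit.map _
  have hS0nd : ¬ ϖ01 ∣ S0 := hnot_of_unit _ (by rw [hred_S0]; exact isUnit_one)
  have hβnd : ¬ ϖ01 ∣ β := hnot_of_unit _ (by
    rw [hred_β]; exact (u.isUnit).map (S.N01 (Trunc O n)))
  have hX0nd : ¬ ϖ01 ∣ X0 := by
    apply hnot_of_unit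
    have h1 : CechData.redI O I B01' X0 * CechData.redI O I B01' ((D'.pkg O).r0 w0')
        = CechData.redI O I B01' (algebraMap O (O ⊗[W] B01') (υ0 : O)) := by
      rw [← map_mul, hX0, ← map_mul, hw0, map_mul, (D'.pkg O).r0.commutes, map_mul, ← hS0,
        hred_S0, mul_one]
    have h2 : IsUnit (CechData.redI O I B01' (algebraMap O (O ⊗[W] B01') (υ0 : O))) :=
      (υ0.isUnit.map _).map _
    rw [← h1] at h2
    exact isUnit_of_mul_isUnit_left h2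
  have hX1nd : ¬ ϖ01 ∣ X1 := by
    apply hnot_of_unit
    have h1 : CechData.redI O I B01' X1 * CechData.redI O I B01' ((D'.pkg O).r1 w1')
        = CechData.redI O I B01' (algebraMap O (O ⊗[W] B01') (υ1 : O)) := by
      rw [← map_mul, hX1, ← map_mul, hw1, map_mul, (D'.pkg O).r1.commutes, map_mul, redI_r1,
        hred_N1, map_one, mul_one]
    have h2 : IsUnit (CechData.redI O I B01' (algebraMap O (O ⊗[W] B01') (υ1 : O))) :=
      (υ1.isUnit.map _).map _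
    rw [← h1] at h2
    exact isUnit_of_mul_isUnit_left h2
  have hnd : ¬ ϖ01 ∣ E0 * S0 * X1 :=
    not_dvd_mul hT.prime01 (not_dvd_mul hT.prime01 (not_dvd_of_isUnit hT.prime01 hE0u) hS0nd) hX1nd
  have hnd' : ¬ ϖ01 ∣ E1 * β * X0 :=
    not_dvd_mul hT.prime01 (not_dvd_mul hT.prime01 (not_dvd_of_isUnit hT.prime01 hE1u) hβnd) hX0nd
  have hmain : E0 * S0 * X1 = E1 * β * X0 :=
    overlap_eq hT.prime01 ι' hG.ι'_inj hrelF hA0' hA1' hnd hnd'
  -- reduce modulo `𝔪^n`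
  have hmain' := congrArg (CechData.redI O I B01') hmain
  rw [map_mul, map_mul, map_mul, map_mul, hred_S0, hred_β, mul_one, hX0, hX1, redI_r0, redI_r1,
    hE0, hE1, redI_algebraMap, redI_algebraMap] at hmain'
  -- the units
  have hw0u : IsUnit (CechData.redI O I B0' w0) := by
    have h1 : CechData.redI O I B0' w0 * CechData.redI O I B0' w0'
        = CechData.redI O I B0' (algebraMap O (O ⊗[W] B0') (υ0 : O)) := by
      rw [← map_mul, hw0, map_mul, hred_N0, mul_one]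
    have h2 : IsUnit (CechData.redI O I B0' (algebraMap O (O ⊗[W] B0') (υ0 : O))) :=
      (υ0.isUnit.map _).map _
    rw [← h1] at h2
    exact isUnit_of_mul_isUnit_left h2
  have hw1u : IsUnit (CechData.redI O I B1' w1) := by
    have h1 : CechData.redI O I B1' w1 * CechData.redI O I B1' w1'
        = CechData.redI O I B1' (algebraMap O (O ⊗[W] B1') (υ1 : O)) := by
      rw [← map_mul, hw1, map_mul, hred_N1, mul_one]
    have h2 : IsUnit (CechData.redI O I B1' (algebraMap O (O ⊗[W] B1') (υ1 : O))) :=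
      (υ1.isUnit.map _).map _
    rw [← h1] at h2
    exact isUnit_of_mul_isUnit_left h2
  have hε1u : IsUnit (algebraMap (O ⧸ I) ((O ⧸ I) ⊗[W] B0') (Ideal.Quotient.mk I (ε1 : O))) :=
    (ε1.isUnit.map _).map _
  have hε0u : IsUnit (algebraMap (O ⧸ I) ((O ⧸ I) ⊗[W] B1') (Ideal.Quotient.mk I (ε0 : O))) :=
    (ε0.isUnit.map _).map _
  refine ⟨(hε1u.mul hw0u).unit, (hε0u.mul hw1u).unit, ?_⟩
  rw [IsUnit.unit_spec, IsUnit.unit_spec, map_mul, map_mul, (D'.pkg (O ⧸ I)).r0.commutes,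
    (D'.pkg (O ⧸ I)).r1.commutes]
  rw [hmain']
  ring

end Main

end Fermat.Agent.T1B.Cmp15
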