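/-
T1B (S44), brick CMP (helper15), part B4: **the abstract comparison theorem**.

`cmp_core` : in the setting of `Core.lean` (`S : NormSys D D'`, `O` a DVR over `W` with uniformiser `ϖ`,
target hypotheses `TargetHyp D' O ϖ`), let `M` be a line two-chart module on `X_O` with class
`y ∈ J̃1(O)` and generic fibre data `GenericHyp S O M ι ι' NF θ h` ("the norm of the generic fibre of `M`
is the principal divisor of `h⁻¹`").  Then for every `n`
  `S.βn 𝔪 n (uJ c0 D hρ0 hρ1 O n y) = 1`,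
i.e. `y` lies in the FORMAL KERNEL of the Čech norm (`Toric50.Package2.K`).
-/
import Mathlib
import Fermat.Agent.T1B.Cmp15.Core

set_option autoImplicit false
set_option linter.unusedSectionVars false
set_option linter.style.haveILetI false
set_option maxHeartbeats 1000000

open TensorProduct

noncomputable section

namespace Fermat.Agent.T1B.Cmp15

open Fermat.Agent.Jac Fermat.Agent.Jac.JSmooth85Alg Fermat.Agent.Jac.JGroup85Pic
open Fermat.Agent.Jac.LineOps39 Fermat.Agent.Jac.BaseChange75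
open Fermat.Agent.T1.RedIface75 Fermat.Agent.T1.Red11 Fermat.Agent.T1.CechFormal70
open Fermat.Agent.T1B.Toric11
open scoped Fermat.Agent.Jac.BaseChange75

universe u

variable {W B0 B1 B01 B0' B1' B01' : Type u} [CommRing W]
  [CommRing B0] [CommRing B1] [CommRing B01] [Algebra W B0] [Algebra W B1] [Algebra W B01]
  [Algebra B0 B01] [Algebra B1 B01] [IsScalarTower W B0 B01] [IsScalarTower W B1 B01]
  [CommRing B0'] [CommRing B1'] [CommRing B01'] [Algebra W B0'] [Algebra W B1'] [Algebra W B01']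
  {g g' : ℕ}
  (c0 : TwoChart W B0 B1 B01) {D : CechData W B0 B1 B01 g} {D' : CechData W B0' B1' B01' g'}
  (hρ0 : ∀ x, D.ρ0 x = algebraMap B0 B01 x) (hρ1 : ∀ x, D.ρ1 x = algebraMap B1 B01 x)
  {S : NormSys D D'}
  {O : Type u} [CommRing O] [IsDomain O] [IsDiscreteValuationRing O] [Algebra W O]
  {ϖ : O} {M : QC2 O (O ⊗[W] B0) (O ⊗[W] B1) (O ⊗[W] B01)}
  {F F' : Type*} [Field F] [Field F'] {ι : O ⊗[W] B01 →+* F} {ι' : O ⊗[W] B01' →+* F'}
  {NF : F →* F'} {θ : M.N01 →+ F} {h : F'}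

local notation "𝔪O" => IsLocalRing.maximalIdeal O

/-- over a trivial ring the Čech formal group is trivial. -/
theorem subsingleton_Jhat {R T0 T1 T01 : Type*} [CommRing R] [CommRing T0] [CommRing T1]
    [CommRing T01] [Algebra R T0] [Algebra R T1] [Algebra R T01] {gP : ℕ}
    (P : Pkg R T0 T1 T01 gP) (m : Ideal R) [Subsingleton T01] : Subsingleton (P.Jhat m) := by
  refine ⟨fun a b => ?_⟩
  obtain ⟨u, rfl⟩ := P.cls_surjective m a
  obtain ⟨v, rfl⟩ := P.cls_surjective m b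
  congr 1
  apply Subtype.ext
  apply Units.ext
  exact Subsingleton.elim _ _

include hρ0 hρ1 in
/-- **CMP, abstract core.** -/
theorem cmp_core (hϖ : Irreducible ϖ) (hT : TargetHyp D' O ϖ) (hM : M.IsLine)
    (hy : LinePic.mk (c0.baseChange O) M hM ∈ J1 c0 O)
    (hG : GenericHyp S O M ι ι' NF θ h) (n : ℕ) :
    S.βn 𝔪O n (uJ c0 D hρ0 hρ1 O n ⟨LinePic.mk (c0.baseChange O) M hM, hy⟩) = 1 := by
  -- trivial cases
  rcases subsingleton_or_nontrivial (Trunc O n ⊗[W] B01') with hsub | hnt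
  · haveI : Subsingleton (Jn D' 𝔪O n) := subsingleton_Jhat _ _
    exact Subsingleton.elim _ _
  rcases subsingleton_or_nontrivial (Trunc O n ⊗[W] B01) with hsub | hnt0
  · haveI : Subsingleton (Jn D 𝔪O n) := subsingleton_Jhat _ _
    rw [Subsingleton.elim (uJ c0 D hρ0 hρ1 O n ⟨LinePic.mk (c0.baseChange O) M hM, hy⟩) 1, map_one]
  have hn : n ≠ 0 := by
    rintro rfl
    haveI : Subsingleton (Trunc O 0) := subsingleton_trunc_zero O
    haveI : Subsingleton (Trunc O 0 ⊗[W] B01) := Module.subsingleton (Trunc O 0) _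
    exact not_subsingleton _ ‹_›
  -- level `n` representatives
  obtain ⟨m0, m1, s0, s1, b, u, hs0, hs1, hs0N, hs1N, hrel, hne, hPic, hu⟩ :=
    exists_level_rep c0 O M hM hy hn
  obtain ⟨hm0, hm1⟩ := hne hnt0
  obtain ⟨W0, W1, hW⟩ := norm_transUnit hρ0 hρ1 hϖ hT hG hn hs0 hs1 hs0N hs1N hrel hm0 hm1 hu
  -- the truncated class
  set y : J1 c0 O := ⟨LinePic.mk (c0.baseChange O) M hM, hy⟩ with hyy
  obtain ⟨u'', hu''⟩ := (D.pkg (Tr 𝔪O n)).cls_surjective (mQ 𝔪O n) (uJ c0 D hρ0 hρ1 O n y)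
  have h1 := jhatToPic_uJ c0 D hρ0 hρ1 O n y
  rw [← hu'', jhatToPic_cls] at h1
  have h2 : cechClass (c0.baseChange (Tr 𝔪O n)) (u'' : (Tr 𝔪O n ⊗[W] B01)ˣ)
      = cechClass (c0.baseChange (Tr 𝔪O n)) u := h1.trans hPic
  obtain ⟨a0, a1, ha⟩ := (cechClass_eq_cechClass_iff (c0.baseChange (Tr 𝔪O n)) _ _).1 h2
  rw [← hu'', NormSys.βn_cls, ← map_one ((D'.pkg (Tr 𝔪O n)).cls (mQ 𝔪O n)),
    (D'.pkg (Tr 𝔪O n)).cls_eq_cls_iff_units (mQ_nilpotent 𝔪O n)]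
  refine ⟨Units.map (S.N0 (Tr 𝔪O n)) a0 * W0, Units.map (S.N1 (Tr 𝔪O n)) a1 * W1⁻¹, ?_⟩
  apply Units.ext
  have hN : S.N01 (Tr 𝔪O n) (u : Tr 𝔪O n ⊗[W] B01)
      = S.N01 (Tr 𝔪O n) ((u'' : (Tr 𝔪O n ⊗[W] B01)ˣ) : Tr 𝔪O n ⊗[W] B01)
        * (D'.pkg (Tr 𝔪O n)).r0 (S.N0 (Tr 𝔪O n) (a0 : Tr 𝔪O n ⊗[W] B0))
        * (D'.pkg (Tr 𝔪O n)).r1 (S.N1 (Tr 𝔪O n) (a1 : Tr 𝔪O n ⊗[W] B1)) := by
    rw [ha, Units.val_mul, Units.val_mul, map_mul, map_mul, Units.coe_map, Units.coe_map,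
      MonoidHom.coe_coe, MonoidHom.coe_coe,
      ← Fermat.Agent.T1.Red11.pkg_r0_eq_algebraMap D hρ0 (Tr 𝔪O n),
      ← Fermat.Agent.T1.Red11.pkg_r1_eq_algebraMap D hρ1 (Tr 𝔪O n), S.res0, S.res1]
  have hV : (D'.pkg (Tr 𝔪O n)).r1 (W1 : Tr 𝔪O n ⊗[W] B1')
      * (D'.pkg (Tr 𝔪O n)).r1 ((W1⁻¹ : (Tr 𝔪O n ⊗[W] B1')ˣ) : Tr 𝔪O n ⊗[W] B1') = 1 := by
    rw [← map_mul, Units.mul_inv, map_one]
  simp only [Units.val_mul, Units.coe_map, MonoidHom.coe_coe, Units.val_one, map_mul,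
    NormSys.coe_unitHom01, OneMemClass.coe_one]
  rw [hN] at hW
  linear_combination (-(D'.pkg (Tr 𝔪O n)).r1
    ((W1⁻¹ : (Tr 𝔪O n ⊗[W] B1')ˣ) : Tr 𝔪O n ⊗[W] B1')) * hW - hV

end Fermat.Agent.T1B.Cmp15
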