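/-
T1B (S44), brick CMP (helper15), part R2-d: **base change of a chart `B ⊂ E ⊂ Kt((q))` to a DVR `O`
over `W = ↥Ow`: domain, embedding into Laurent series, non-empty special fibre.**

Corollaries of helper26's `Cmp26.Generic` / `Cmp26.TargetAbs` for the charts of the `RED` models
(smooth `TwoChartModel` or nodal `NodalTwoChartModel`: any `Subalgebra ↥Ow ↥E`, `E ⊂ Kt((q))`), with the
generic expansion `coeOn` and the reduced expansion `resOn` of `Cmp15/TargetExp`:

* `genHom_chart_injective` : `O ⊗[W] B ↪ Eh((q))` (`Eh ⊇ Kt`, `O ↪ Eh`; e.g. `Eh = Frac O`)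
  — the `ι'`, `ι'_inj` of `Cmp15.GenericHyp` (and `ι`);
* `isDomain_tensor_chart` : `IsDomain (O ⊗[W] B)` — the `IsDomain (O ⊗ B01)` of `Alg81.algUnits_of_isDomain`;
* `map_maximalIdeal_ne_top_chart` : `𝔪_O (O ⊗[W] B) ≠ ⊤` for `B ⊆ Ov` the Gauss valuation ring
  — the `hne` of `Alg81.algUnits_of_isDomain`;
* `mem_nonZeroDivisors_of_sub_one_mem_chart` : the `hnzd` of `Toric11.towerInput`.
-/
import Mathlib
import Fermat.Agent.T1B.Cmp26.Generic
import Fermat.Agent.T1B.Cmp15.TargetExp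

set_option autoImplicit false
set_option linter.unusedSectionVars false
set_option linter.style.haveILetI false

open TensorProduct HahnSeries

noncomputable section

namespace Fermat.Agent.T1B.Cmp15

open Fermat.Agent.RED.PUR.GaussGen8

variable {Kt : Type*} [Field Kt] {Ow : ValuationSubring Kt}
  {E : IntermediateField Kt (LaurentSeries Kt)}

section Generic

variable (B : Subalgebra ↥Ow ↥E) [Module.Flat ↥Ow ↥B]
  (Eh : Type*) [Field Eh] [Algebra Kt Eh] [Algebra ↥Ow Eh] [IsScalarTower ↥Ow Kt Eh]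
  (O : Type*) [CommRing O] [Algebra ↥Ow O] [Algebra O Eh] [IsScalarTower ↥Ow O Eh]

/-- the constants of the generic expansion, in the shape of `Cmp26.Generic`. -/
theorem coeOn_algebraMap' (w : ↥Ow) :
    coeOn B (algebraMap ↥Ow ↥B w) = HahnSeries.C (algebraMap ↥Ow Kt w) :=
  coeOn_algebraMap B w

/-- the embedding `O ⊗[W] B → Eh((q))`, `r ⊗ b ↦ r • b(q)`. -/
def genHomChart : O ⊗[↥Ow] ↥B →+* LaurentSeries Eh :=
  Cmp26.genHom Kt (coeOn B) (coeOn_algebraMap' B) Eh O

@[simp] theorem genHomChart_tmul (r : O) (b : ↥B) :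
    genHomChart B Eh O (r ⊗ₜ b)
      = algebraMap O Eh r • ModularCurve.coeffMap (algebraMap Kt Eh) (coeOn B b) :=
  Cmp26.genHom_tmul Kt (coeOn B) (coeOn_algebraMap' B) Eh O r b

variable {Eh O}

/-- **`O ⊗[W] B` embeds into `Eh((q))`.** -/
theorem genHom_chart_injective (hOE : Function.Injective (algebraMap O Eh)) :
    Function.Injective (genHomChart B Eh O) :=
  Cmp26.genHom_injective (coeOn_algebraMap' B) (coeOn_injective B) hOE

include Eh in
/-- **`O ⊗[W] B` is a domain.** -/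
theorem isDomain_tensor_chart (hOE : Function.Injective (algebraMap O Eh)) :
    IsDomain (O ⊗[↥Ow] ↥B) :=
  Cmp26.isDomain_tensor (coeOn_algebraMap' B) (coeOn_injective B) hOE

end Generic

section Special

open IsLocalRing

variable {π : Ow} (hπ : IsUnif Ow π) (hE : E ≤ fracField Ow)
  (B : Subalgebra ↥Ow ↥E) (hle : ∀ x ∈ B, x ∈ gaussVS hπ E hE)
  (O : Type*) [CommRing O] [IsLocalRing O] [Algebra ↥Ow O] [IsLocalHom (algebraMap ↥Ow O)]

/-- the reduction `O ⊗[W] B → κ_O((q))` of a chart contained in the Gauss valuation ring. -/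
def specHomChart : O ⊗[↥Ow] ↥B →+* LaurentSeries (ResidueField O) :=
  Cmp26.specHom (ResidueField ↥Ow) (resOn hπ hE B hle) (resOn_algebraMap hπ hE B hle)
    (ResidueField O) O

theorem specHomChart_algebraMap (x : O) :
    specHomChart hπ hE B hle O (algebraMap O (O ⊗[↥Ow] ↥B) x) = HahnSeries.C (residue O x) := by
  rw [Algebra.TensorProduct.algebraMap_apply, Algebra.algebraMap_self, RingHom.id_apply]
  show Cmp26.specHom _ _ _ _ _ (x ⊗ₜ (1 : ↥B)) = _
  rw [Cmp26.specHom_tmul, map_one, map_one, ← HahnSeries.C_mul_eq_smul, mul_one]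
  rfl

include hπ hE hle in
/-- **the special fibre of `O ⊗[W] B` is non-empty.** -/
theorem map_maximalIdeal_ne_top_chart :
    (maximalIdeal O).map (algebraMap O (O ⊗[↥Ow] ↥B)) ≠ ⊤ := by
  intro htop
  have hle' : (maximalIdeal O).map (algebraMap O (O ⊗[↥Ow] ↥B))
      ≤ RingHom.ker (specHomChart hπ hE B hle O) := by
    rw [Ideal.map_le_iff_le_comap]
    intro x hx
    rw [Ideal.mem_comap, RingHom.mem_ker, specHomChart_algebraMap,
      (residue_eq_zero_iff x).2 hx, map_zero]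
  rw [htop, top_le_iff] at hle'
  have h1 : (1 : O ⊗[↥Ow] ↥B) ∈ RingHom.ker (specHomChart hπ hE B hle O) := by
    rw [hle']
    exact Submodule.mem_top
  rw [RingHom.mem_ker, map_one] at h1
  exact one_ne_zero h1

include hπ hE hle in
/-- **`hnzd`**: elements `≡ 1 mod 𝔪_O` of the domain `O ⊗[W] B` are non-zero-divisors. -/
theorem mem_nonZeroDivisors_of_sub_one_mem_chart [IsDomain (O ⊗[↥Ow] ↥B)] (v : O ⊗[↥Ow] ↥B)
    (hv : v - 1 ∈ (maximalIdeal O).map (algebraMap O (O ⊗[↥Ow] ↥B))) :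
    v ∈ nonZeroDivisors (O ⊗[↥Ow] ↥B) := by
  refine mem_nonZeroDivisors_of_ne_zero fun h0 => map_maximalIdeal_ne_top_chart hπ hE B hle O ?_
  rw [Ideal.eq_top_iff_one]
  rw [h0, zero_sub] at hv
  have := Ideal.neg_mem_iff _ |>.1 hv
  exact this

end Special

end Fermat.Agent.T1B.Cmp15
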