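/-
T1B (S44), sub-cell TORIC50, brick CMP: **THE `E`-LEVEL PACKAGE** (helper15, for helper67's
`Cmp67.LevelData` / `Cmp67.cmp_of_map_eq`).

Setting of `Cmp67/Assemble.lean`: charts `B0, B1, B01` (source), `B0', B1', B01'` (target) over `W`, a
norm system `S : NormSys D D'`, a DVR `O` with field of fractions `E`, an infinite field `L ⊆ E`,
fields `F ⊇ L ⊗ B01`, `F' ⊇ L ⊗ B01'`.  Here we BUILD the `LevelData` with the ambient fields
`Fe := Frac (E ⊗ B01)`, `Fe' := Frac (E ⊗ B01')` out of clean hypotheses: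

* `B01` is a finite projective `B01'`-algebra, `E ⊗ B01' → E ⊗ B01` is injective, both are domains, and
  `S.N01 E` is helper84's `tnorm W E B01' B01` (true by `rfl` for `NormSys.ofProj`/`ChartMor.normSys`);
  then the `E`-level norm is the FIELD norm `Algebra.norm (Frac (E ⊗ B01'))` (`fracNorm`), and
  `fracNorm_algebraMap` = helper38's `Cmp38.map_tnorm_eq_norm`;
* `B01, B01'` flat over `W`, `O → E` injective with `E = Frac O`;
* `F = Frac (L ⊗ B01)`, `F' = Frac (L ⊗ B01')` (`IsFractionRing`), and the `L`-level norm `Nm` with its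
  compatibility `hNm` GIVEN.

Results:
* `levelData_of_frac … : Cmp67.LevelData S O L E F F' (FractionRing (E ⊗[W] B01)) (FractionRing (E ⊗[W] B01'))`
  with `(levelData_of_frac …).Nm = Nm` (`levelData_of_frac_Nm`, `rfl`);
* `cmp_of_map_eq_frac` : `Cmp67.cmp_of_map_eq` with this package plugged in; NO ambient `E`-level field
  appears in the statement any more.
-/
import Mathlib
import Fermat.Agent.T1B.Cmp67.Assemble
import Fermat.Agent.T1B.Cmp38.NormField

set_option autoImplicit false
set_option linter.unusedSectionVars false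
set_option linter.style.haveILetI false
set_option maxHeartbeats 1000000

open TensorProduct

noncomputable section

namespace Fermat.Agent.T1B.Cmp15

open Fermat.Agent.Jac Fermat.Agent.Jac.JSmooth85Alg Fermat.Agent.Jac.JGroup85Pic
open Fermat.Agent.Jac.BaseChange75
open Fermat.Agent.T1.RedIface75 Fermat.Agent.T1.Red11 Fermat.Agent.T1.CechFormal70
open Fermat.Agent.T1B.Toric11 Fermat.Agent.T1B.Hol31.Frame Fermat.Agent.T1B.Cmp67
open Fermat.Agent.T1B.Norm84
open scoped Fermat.Agent.Jac.BaseChange75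

universe u

/-! ### Generalities -/

section General

/-- an `Algebra` instance is `RingHom.toAlgebra` of its own algebra map. -/
theorem toAlgebra_algebraMap_eq_self {A K : Type*} [CommSemiring A] [CommSemiring K]
    [inst : Algebra A K] : (algebraMap A K).toAlgebra = inst :=
  Algebra.algebra_ext _ _ fun _ => rfl

/-- `IsFractionRing` for the `toAlgebra` structure of the algebra map. -/
theorem isFractionRing_toAlgebra_algebraMap (A K : Type*) [CommRing A] [CommRing K]
    [inst : Algebra A K] [h : IsFractionRing A K] :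
    @IsFractionRing A _ K _ (algebraMap A K).toAlgebra := by
  rw [toAlgebra_algebraMap_eq_self]
  exact h

variable {W : Type u} [CommRing W]

/-- `R ⊗ B → R' ⊗ B` is injective for `B` flat and `R → R'` injective. -/
theorem algebraMap_left_injective_of_flat {R R' : Type u} [CommRing R] [CommRing R']
    [Algebra W R] [Algebra W R'] [Algebra R R'] [IsScalarTower W R R'] (B : Type u) [CommRing B]
    [Algebra W B] [Module.Flat W B] (h : Function.Injective (algebraMap R R')) :
    Function.Injective (algebraMap (R ⊗[W] B) (R' ⊗[W] B)) := by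
  have h1 : Function.Injective
      (LinearMap.rTensor B (IsScalarTower.toAlgHom W R R').toLinearMap) :=
    Module.Flat.rTensor_preserves_injective_linearMap _ h
  have h2 : ∀ z : R ⊗[W] B, algebraMap (R ⊗[W] B) (R' ⊗[W] B) z
      = LinearMap.rTensor B (IsScalarTower.toAlgHom W R R').toLinearMap z := by
    intro z
    induction z using TensorProduct.induction_on with
    | zero => simp
    | tmul l b => rw [algebraMap_left_tmul, LinearMap.rTensor_tmul]; rfl
    | add x y hx hy => rw [map_add, map_add, hx, hy]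
  intro x y hxy
  apply h1
  rw [← h2, ← h2, hxy]

/-- `E ⊗ A → E ⊗ C` is injective for `E` flat and `A → C` injective. -/
theorem map_id_injective_of_flat (E : Type u) [CommRing E] [Algebra W E] [Module.Flat W E]
    {A C : Type u} [CommRing A] [CommRing C] [Algebra W A] [Algebra W C] [Algebra A C]
    [IsScalarTower W A C] (h : Function.Injective (algebraMap A C)) :
    Function.Injective
      (Algebra.TensorProduct.map (AlgHom.id E E) (IsScalarTower.toAlgHom W A C)) := by
  have h1 : Function.Injective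
      (LinearMap.lTensor E (IsScalarTower.toAlgHom W A C).toLinearMap) :=
    Module.Flat.lTensor_preserves_injective_linearMap _ h
  have h2 : ∀ z : E ⊗[W] A,
      Algebra.TensorProduct.map (AlgHom.id E E) (IsScalarTower.toAlgHom W A C) z
      = LinearMap.lTensor E (IsScalarTower.toAlgHom W A C).toLinearMap z := by
    intro z
    induction z using TensorProduct.induction_on with
    | zero => simp
    | tmul l b => rw [Algebra.TensorProduct.map_tmul, LinearMap.lTensor_tmul]; rfl
    | add x y hx hy => rw [map_add, map_add, hx, hy]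
  intro x y hxy
  apply h1
  rw [← h2, ← h2, hxy]

end General

/-! ### The fraction fields of `E ⊗ A ⊆ E ⊗ C` and the field norm -/

section FracNorm

variable {W : Type u} [CommRing W] (E : Type u) [CommRing E] [Algebra W E]
  (A C : Type u) [CommRing A] [CommRing C] [Algebra W A] [Algebra W C] [Algebra A C]
  [IsScalarTower W A C] [IsDomain (E ⊗[W] A)] [IsDomain (E ⊗[W] C)]
  (hinj : Function.Injective
    (Algebra.TensorProduct.map (AlgHom.id E E) (IsScalarTower.toAlgHom W A C)))

/-- `Frac (E ⊗ A) → Frac (E ⊗ C)`. -/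
def fracHom : FractionRing (E ⊗[W] A) →+* FractionRing (E ⊗[W] C) :=
  IsFractionRing.lift (K := FractionRing (E ⊗[W] A))
    (g := (algebraMap (E ⊗[W] C) (FractionRing (E ⊗[W] C))).comp
      (Algebra.TensorProduct.map (AlgHom.id E E) (IsScalarTower.toAlgHom W A C)).toRingHom)
    ((IsFractionRing.injective (E ⊗[W] C) (FractionRing (E ⊗[W] C))).comp hinj)

theorem fracHom_algebraMap (a : E ⊗[W] A) :
    fracHom E A C hinj (algebraMap (E ⊗[W] A) (FractionRing (E ⊗[W] A)) a)
      = algebraMap (E ⊗[W] C) (FractionRing (E ⊗[W] C))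
        (Algebra.TensorProduct.map (AlgHom.id E E) (IsScalarTower.toAlgHom W A C) a) :=
  IsFractionRing.lift_algebraMap _ a

/-- `Frac (E ⊗ C)` as an algebra over `Frac (E ⊗ A)`. -/
@[reducible] def fracAlg : Algebra (FractionRing (E ⊗[W] A)) (FractionRing (E ⊗[W] C)) :=
  (fracHom E A C hinj).toAlgebra

/-- the FIELD NORM `Frac (E ⊗ C) → Frac (E ⊗ A)`. -/
def fracNorm : FractionRing (E ⊗[W] C) →* FractionRing (E ⊗[W] A) :=
  letI := fracAlg E A C hinj
  Algebra.norm (FractionRing (E ⊗[W] A))

/-- **the tensor-layer norm is the field norm** (helper38's `map_tnorm_eq_norm`). -/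
theorem fracNorm_algebraMap [Module.Finite A C] [Module.Projective A C] (u : E ⊗[W] C) :
    fracNorm E A C hinj (algebraMap (E ⊗[W] C) (FractionRing (E ⊗[W] C)) u)
      = algebraMap (E ⊗[W] A) (FractionRing (E ⊗[W] A)) (tnorm W E A C u) := by
  letI := fracAlg E A C hinj
  exact (Cmp38.map_tnorm_eq_norm W E A C hinj
    (algebraMap (E ⊗[W] A) (FractionRing (E ⊗[W] A)))
    (algebraMap (E ⊗[W] C) (FractionRing (E ⊗[W] C)))
    (isFractionRing_toAlgebra_algebraMap _ _) (isFractionRing_toAlgebra_algebraMap _ _)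
    (fun a => fracHom_algebraMap E A C hinj a) u).symm

end FracNorm

/-! ### The level data -/

section Level

variable {W : Type u} [CommRing W]
  {B0 B1 B01 B0' B1' B01' : Type u} [CommRing B0] [CommRing B1] [CommRing B01]
  [CommRing B0'] [CommRing B1'] [CommRing B01']
  [Algebra W B0] [Algebra W B1] [Algebra W B01] [Algebra W B0'] [Algebra W B1'] [Algebra W B01']
  [Algebra B0 B01] [IsScalarTower W B0 B01] [Algebra B1 B01] [IsScalarTower W B1 B01]
  [Algebra B0' B01'] [IsScalarTower W B0' B01'] [Algebra B1' B01'] [IsScalarTower W B1' B01']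
  [Algebra B01' B01] [IsScalarTower W B01' B01] [Module.Finite B01' B01]
  [Module.Projective B01' B01] [Module.Flat W B01] [Module.Flat W B01']
  {g g' : ℕ} (c0 : TwoChart W B0 B1 B01)
  {D : CechData W B0 B1 B01 g} {D' : CechData W B0' B1' B01' g'}
  (hρ0 : ∀ x, D.ρ0 x = algebraMap B0 B01 x) (hρ1 : ∀ x, D.ρ1 x = algebraMap B1 B01 x)
  (hρ0' : ∀ x, D'.ρ0 x = algebraMap B0' B01' x) (hρ1' : ∀ x, D'.ρ1 x = algebraMap B1' B01' x)
  (S : NormSys D D')
  {O : Type u} [CommRing O] [IsDomain O] [Algebra W O]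
  {L E : Type u} [Field L] [Field E] [Algebra W L] [Algebra W E] [Algebra L E]
  [IsScalarTower W L E] [Algebra O E] [IsScalarTower W O E] [IsFractionRing O E]
  [IsDomain (E ⊗[W] B01)] [IsDomain (E ⊗[W] B01')]
  {F F' : Type u} [Field F] [Field F']
  [Algebra (L ⊗[W] B01) F] [IsFractionRing (L ⊗[W] B01) F]
  [Algebra (L ⊗[W] B01') F'] [IsFractionRing (L ⊗[W] B01') F']

/-- `E` is the field of fractions of `O`, in the elementary form of `Cmp67`. -/
theorem hfracOE_of_isFractionRing (O E : Type u) [CommRing O] [IsDomain O] [Field E]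
    [Algebra O E] [IsFractionRing O E] :
    ∀ e : E, ∃ c : O, c ≠ 0 ∧ ∃ o : O, algebraMap O E o = algebraMap O E c * e := by
  intro e
  obtain ⟨⟨o, c⟩, h⟩ := IsLocalization.surj (nonZeroDivisors O) e
  exact ⟨c, nonZeroDivisors.ne_zero c.2, o, by rw [mul_comm]; exact h.symm⟩

/-- `F = Frac A` in the elementary form of `Cmp67`. -/
theorem hfrac_of_isFractionRing (A F : Type u) [CommRing A] [Field F] [Algebra A F]
    [IsFractionRing A F] :
    ∀ g : F, ∃ d u : A, algebraMap A F d ≠ 0 ∧ algebraMap A F d * g = algebraMap A F u := by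
  intro g
  obtain ⟨⟨u, d⟩, h⟩ := IsLocalization.surj (nonZeroDivisors A) g
  exact ⟨d, u, (IsLocalization.map_units F d).ne_zero, by rw [mul_comm]; exact h⟩

/-- the embedding `F = Frac (L ⊗ B) → Frac (E ⊗ B)`. -/
def phiFrac (L E : Type u) [Field L] [Field E] [Algebra W L] [Algebra W E] [Algebra L E]
    [IsScalarTower W L E] (B : Type u) [CommRing B] [Algebra W B] [Module.Flat W B]
    [IsDomain (E ⊗[W] B)] (F : Type u) [Field F] [Algebra (L ⊗[W] B) F]
    [IsFractionRing (L ⊗[W] B) F] : F →+* FractionRing (E ⊗[W] B) :=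
  IsFractionRing.lift (K := F)
    (g := (algebraMap (E ⊗[W] B) (FractionRing (E ⊗[W] B))).comp
      (algebraMap (L ⊗[W] B) (E ⊗[W] B)))
    ((IsFractionRing.injective (E ⊗[W] B) (FractionRing (E ⊗[W] B))).comp
      (algebraMap_left_injective_of_flat B (algebraMap L E).injective))

theorem phiFrac_algebraMap (L E : Type u) [Field L] [Field E] [Algebra W L] [Algebra W E]
    [Algebra L E] [IsScalarTower W L E] (B : Type u) [CommRing B] [Algebra W B] [Module.Flat W B]
    [IsDomain (E ⊗[W] B)] (F : Type u) [Field F] [Algebra (L ⊗[W] B) F]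
    [IsFractionRing (L ⊗[W] B) F] (u : L ⊗[W] B) :
    phiFrac L E B F (algebraMap (L ⊗[W] B) F u)
      = algebraMap (E ⊗[W] B) (FractionRing (E ⊗[W] B)) (algebraMap (L ⊗[W] B) (E ⊗[W] B) u) :=
  IsFractionRing.lift_algebraMap _ u

/-- **The `E`-level package with ambient fields `Frac (E ⊗ B01)`, `Frac (E ⊗ B01')`.** -/
def levelData_of_frac
    (hinj : Function.Injective
      (Algebra.TensorProduct.map (AlgHom.id E E) (IsScalarTower.toAlgHom W B01' B01)))
    (hS : ∀ u : E ⊗[W] B01, S.N01 E u = tnorm W E B01' B01 u)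
    (Nm : F →* F')
    (hNm : ∀ u : L ⊗[W] B01, Nm (algebraMap _ F u) = algebraMap _ F' (S.N01 L u)) :
    LevelData S O L E F F' (FractionRing (E ⊗[W] B01)) (FractionRing (E ⊗[W] B01')) where
  hfracOE := hfracOE_of_isFractionRing O E
  Nm := Nm
  Nme := fracNorm E B01' B01 hinj
  hNm := hNm
  hNme u := by rw [fracNorm_algebraMap, hS]
  φ := phiFrac L E B01 F
  φ' := phiFrac L E B01' F'
  hφ := phiFrac_algebraMap L E B01 F
  hφ' := phiFrac_algebraMap L E B01' F'
  hfrac := hfrac_of_isFractionRing (L ⊗[W] B01) F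
  hinjOE := algebraMap_left_injective_of_flat B01 (IsFractionRing.injective O E)
  hinjE := IsFractionRing.injective _ _
  hι' := (IsFractionRing.injective (E ⊗[W] B01') (FractionRing (E ⊗[W] B01'))).comp
    (algebraMap_left_injective_of_flat B01' (IsFractionRing.injective O E))

@[simp] theorem levelData_of_frac_Nm
    (hinj : Function.Injective
      (Algebra.TensorProduct.map (AlgHom.id E E) (IsScalarTower.toAlgHom W B01' B01)))
    (hS : ∀ u : E ⊗[W] B01, S.N01 E u = tnorm W E B01' B01 u)
    (Nm : F →* F')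
    (hNm : ∀ u : L ⊗[W] B01, Nm (algebraMap _ F u) = algebraMap _ F' (S.N01 L u)) :
    (levelData_of_frac S hinj hS Nm hNm (O := O)).Nm = Nm := rfl

end Level

/-! ### CMP with the fraction-field package plugged in -/

section Final

variable {W : Type u} [CommRing W]
  {B0 B1 B01 B0' B1' B01' : Type u} [CommRing B0] [CommRing B1] [CommRing B01]
  [CommRing B0'] [CommRing B1'] [CommRing B01']
  [Algebra W B0] [Algebra W B1] [Algebra W B01] [Algebra W B0'] [Algebra W B1'] [Algebra W B01']
  [Algebra B0 B01] [IsScalarTower W B0 B01] [Algebra B1 B01] [IsScalarTower W B1 B01]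
  [Algebra B0' B01'] [IsScalarTower W B0' B01'] [Algebra B1' B01'] [IsScalarTower W B1' B01']
  [Algebra B01' B01] [IsScalarTower W B01' B01] [Module.Finite B01' B01]
  [Module.Projective B01' B01] [Module.Flat W B01] [Module.Flat W B01']
  {g g' : ℕ} (c0 : TwoChart W B0 B1 B01)
  {D : CechData W B0 B1 B01 g} {D' : CechData W B0' B1' B01' g'}
  (hρ0 : ∀ x, D.ρ0 x = algebraMap B0 B01 x) (hρ1 : ∀ x, D.ρ1 x = algebraMap B1 B01 x)
  (hρ0' : ∀ x, D'.ρ0 x = algebraMap B0' B01' x) (hρ1' : ∀ x, D'.ρ1 x = algebraMap B1' B01' x)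
  (S : NormSys D D')
  {O : Type u} [CommRing O] [IsDomain O] [IsDiscreteValuationRing O] [Algebra W O]
  {L E : Type u} [Field L] [Field E] [Algebra W L] [Algebra W E] [Algebra L E]
  [IsScalarTower W L E] [Algebra O E] [IsScalarTower W O E] [IsFractionRing O E]
  [IsDomain (E ⊗[W] B01)]
  {F F' : Type u} [Field F] [Field F']
  [Algebra (L ⊗[W] B0) F] [Algebra (L ⊗[W] B1) F] [Algebra (L ⊗[W] B01) F]
  [IsScalarTower (L ⊗[W] B0) (L ⊗[W] B01) F] [IsScalarTower (L ⊗[W] B1) (L ⊗[W] B01) F]
  [Algebra (L ⊗[W] B0') F'] [Algebra (L ⊗[W] B1') F'] [Algebra (L ⊗[W] B01') F']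
  [IsScalarTower (L ⊗[W] B0') (L ⊗[W] B01') F'] [IsScalarTower (L ⊗[W] B1') (L ⊗[W] B01') F']
  [IsFractionRing (L ⊗[W] B01) F] [IsFractionRing (L ⊗[W] B01') F']

local notation "𝔪O" => IsLocalRing.maximalIdeal O

include hρ0 hρ1 hρ0' hρ1' in
/-- **CMP, class form, with the `E`-level ambient fields `Frac (E ⊗ B01)`, `Frac (E ⊗ B01')`
plugged in.**  `y ∈ J̃1(O)` and `xL ∈ Pic X_L` with the same image in `Pic X_E`; if every line
representing `xL` is norm-trivial for the `L`-level norm `Nm : F →* F'` (compatible with `S.N01 L`),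
then `y` is in the formal kernel of the Čech norm. -/
theorem cmp_of_map_eq_frac [Infinite L] {ϖ : O} (hϖ : Irreducible ϖ)
    (hT : Cmp15.TargetHyp D' O ϖ)
    (hinj : Function.Injective
      (Algebra.TensorProduct.map (AlgHom.id E E) (IsScalarTower.toAlgHom W B01' B01)))
    (hS : ∀ u : E ⊗[W] B01, S.N01 E u = tnorm W E B01' B01 u)
    (Nm : F →* F')
    (hNm : ∀ u : L ⊗[W] B01, Nm (algebraMap _ F u) = algebraMap _ F' (S.N01 L u))
    (y : J1 c0 O) (xL : PicX c0 L)
    (hxy : PicX.map c0 O E (y : PicX c0 O) = PicX.map c0 L E xL)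
    (hNT : ∀ (ML : QC2 L (L ⊗[W] B0) (L ⊗[W] B1) (L ⊗[W] B01)) (hML : ML.IsLine),
      xL = LinePic.mk (c0.baseChange L) ML hML →
        NormTriv Nm (L ⊗[W] B0') (L ⊗[W] B1') ML) (n : ℕ) :
    S.βn 𝔪O n (uJ c0 D hρ0 hρ1 O n y) = 1 := by
  haveI : IsDomain (E ⊗[W] B01') :=
    Function.Injective.isDomain
      (Algebra.TensorProduct.map (AlgHom.id E E) (IsScalarTower.toAlgHom W B01' B01)).toRingHom hinj
  exact cmp_of_map_eq c0 hρ0 hρ1 hρ0' hρ1' S hϖ hT
    (levelData_of_frac S hinj hS Nm hNm) y xL hxy hNT n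

end Final

end Fermat.Agent.T1B.Cmp15
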