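/-
T1B (S44), sub-cell TORIC50, brick CMP: **CMP, DICTIONARY FORM, WITH THE `E`-LEVEL PACKAGE PLUGGED IN**
(helper15) = helper67's `Cmp67.cmp_of_dict` ∘ `Cmp15.levelData_of_frac`.

No `LevelData`, no `E`-level ambient field and no fraction-field instance is left in the statement:
the function fields `F`, `F'` over `L` are algebras over the hub rings `L ⊗ B01`, `L ⊗ B01'` through the
chart isomorphisms `EL`, `EL'`, and they are the fraction fields of these rings as soon as they are
algebraic over `L(t)`, `L(t')` (helper67's `ChartFrac.isFractionRing01`).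

Inputs left:
* `hT`    : `Cmp15.TargetHyp D' O ϖ` (`Cmp15.targetHyp_of_model`);
* `hinj`  : `E ⊗ B01' → E ⊗ B01` injective (`Cmp15.map_id_injective_of_flat`), `[IsDomain (E ⊗ B01)]`
            (`Cmp15.isDomain_tensor_chart`), flatness of `B01`, `B01'` over `W`, `E = Frac O`;
* `hS`    : `S.N01 E = tnorm W E B01' B01` (`fun _ => rfl` for `NormSys.ofProj`/`ChartMor.normSys`);
* `Nm`, `hNm` : the `L`-level norm and its compatibility with `S.N01 L` through `EL.e01`, `EL'.e01`
            (helper64's `Cmp64/NormChart.e01_tnorm`);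
* `hxy`, `hJ`, `hX` : as in `Cmp67.cmp_of_dict`.
-/
import Mathlib
import Fermat.Agent.T1B.Cmp15.LevelFrac
import Fermat.Agent.T1B.Cmp67.Final
import Fermat.Agent.T1B.Cmp67.ChartFrac

set_option autoImplicit false
set_option linter.unusedSectionVars false
set_option linter.style.haveILetI false
set_option maxHeartbeats 1000000

open TensorProduct

noncomputable section

namespace Fermat.Agent.T1B.Cmp15

open Fermat.Agent.Jac Fermat.Agent.Jac.JSmooth85Alg Fermat.Agent.Jac.JGroup85Pic
open Fermat.Agent.Jac.BaseChange75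
open Fermat.Agent.T1.RedIface75 Fermat.Agent.T1.Red11 Fermat.Agent.T1.CechFormal70
open Fermat.Agent.T1B.Toric11 Fermat.Agent.T1B.Hol31.Frame Fermat.Agent.T1B.Hol31.DictExt
open Fermat.Agent.T1.Dict59 Fermat.Agent.T1.Adapt96 Fermat.Agent.T1B.Cmp67
open Fermat.Agent.T1B.Norm84
open scoped Fermat.Agent.Jac.BaseChange75

universe u

variable {W : Type u} [CommRing W]
  {B0 B1 B01 B0' B1' B01' : Type u} [CommRing B0] [CommRing B1] [CommRing B01]
  [CommRing B0'] [CommRing B1'] [CommRing B01']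
  [Algebra W B0] [Algebra W B1] [Algebra W B01] [Algebra W B0'] [Algebra W B1'] [Algebra W B01']
  [Algebra B0 B01] [IsScalarTower W B0 B01] [Algebra B1 B01] [IsScalarTower W B1 B01]
  [Algebra B0' B01'] [IsScalarTower W B0' B01'] [Algebra B1' B01'] [IsScalarTower W B1' B01']
  [Algebra B01' B01] [IsScalarTower W B01' B01] [Module.Finite B01' B01]
  [Module.Projective B01' B01] [Module.Flat W B01] [Module.Flat W B01']
  {g g' : ℕ} (c0 : TwoChart W B0 B1 B01) (c0' : TwoChart W B0' B1' B01')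
  {D : CechData W B0 B1 B01 g} {D' : CechData W B0' B1' B01' g'}
  (hρ0 : ∀ x, D.ρ0 x = algebraMap B0 B01 x) (hρ1 : ∀ x, D.ρ1 x = algebraMap B1 B01 x)
  (hρ0' : ∀ x, D'.ρ0 x = algebraMap B0' B01' x) (hρ1' : ∀ x, D'.ρ1 x = algebraMap B1' B01' x)
  (S : NormSys D D')
  {O : Type u} [CommRing O] [IsDomain O] [IsDiscreteValuationRing O] [Algebra W O]
  {L E : Type u} [Field L] [Field E] [Algebra W L] [Algebra W E] [Algebra L E]
  [IsScalarTower W L E] [Algebra O E] [IsScalarTower W O E] [IsFractionRing O E]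
  [IsDomain (E ⊗[W] B01)]
  {F F' : Type u} [Field F] [Field F'] [Algebra L F] [Algebra L F'] {t : F} {t' : F'}

local notation "𝔪O" => IsLocalRing.maximalIdeal O

include hρ0 hρ1 hρ0' hρ1' in
/-- **CMP, dictionary form, with the `E`-level package `levelData_of_frac` plugged in.** -/
theorem cmp_of_dict_frac [Infinite L] {ϖ : O} (hϖ : Irreducible ϖ)
    (hT : Cmp15.TargetHyp D' O ϖ)
    (EL : ChartIso (c0.baseChange L) t) (EL' : ChartIso (c0'.baseChange L) t')
    (halg : Algebra.IsAlgebraic (Algebra.adjoin L {t}) F)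
    (halg' : Algebra.IsAlgebraic (Algebra.adjoin L {t'}) F')
    (hinj : Function.Injective
      (Algebra.TensorProduct.map (AlgHom.id E E) (IsScalarTower.toAlgHom W B01' B01)))
    (hS : ∀ u : E ⊗[W] B01, S.N01 E u = tnorm W E B01' B01 u)
    (Nm : F →* F')
    (hNm : ∀ u : L ⊗[W] B01, Nm (EL.e01 u) = EL'.e01 (S.N01 L u))
    (y : J1 c0 O) (xL : PicX c0 L)
    (hxy : PicX.map c0 O E (y : PicX c0 O) = PicX.map c0 L E xL)
    (Good : LinePair L t → Prop)
    (hJ : ∀ (ML : QC2 L (L ⊗[W] B0) (L ⊗[W] B1) (L ⊗[W] B01)) (hML : ML.IsLine)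
      (φ : Framing EL ML), xL = LinePic.mk (c0.baseChange L) ML hML →
        Good (framePair EL hML φ))
    (hX : ∀ P : LinePair L t, Good P → ∃ h : F', h ≠ 0 ∧ PairNormTriv Nm t' P h) (n : ℕ) :
    S.βn 𝔪O n (uJ c0 D hρ0 hρ1 O n y) = 1 := by
  haveI : IsDomain (E ⊗[W] B01') :=
    Function.Injective.isDomain
      (Algebra.TensorProduct.map (AlgHom.id E E) (IsScalarTower.toAlgHom W B01' B01)).toRingHom hinj
  letI := EL.alg01
  letI := EL'.alg01
  haveI : IsFractionRing (L ⊗[W] B01) F := isFractionRing01 EL halg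
  haveI : IsFractionRing (L ⊗[W] B01') F' := isFractionRing01 EL' halg'
  exact cmp_of_dict c0 c0' hρ0 hρ1 hρ0' hρ1' S hϖ hT EL EL'
    (levelData_of_frac S hinj hS Nm hNm) y xL hxy Good hJ hX n

end Fermat.Agent.T1B.Cmp15
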