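/-
T1B (S44), sub-cell TORIC50, brick CMP: **THE `E`-LEVEL INPUTS ON THE MODELS** (helper15).

The charts of the hub are subalgebras `B ⊆ FE ⊂ Kt((q))` over a discrete valuation subring `W = ↥Ow`
of the number field `Kt` (`Hub9`: `Kt = ↥K`, `Ow = AK (padicPlace p) K`, `FE = FK (M' * p) K` resp.
`FK M' K`, `B = B0S H ⊔ B1S H` resp. `B0T H ⊔ B1T H`).  For such charts ALL the `E`-level hypotheses of
`Cmp15.cmp_of_dict_frac` (flatness of the overlaps, `IsDomain (E ⊗ B01)`, injectivity of
`E ⊗ B01' → E ⊗ B01`) are automatic: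

* `flat_of_isDomain_of_injective`, `flat_subalgebra_of_injective` : torsion-free modules over a PID;
* `isDomain_tensor_field` : `IsDomain (E ⊗[W] B)` for every field `E ⊇ Kt` (`Cmp15.isDomain_tensor_chart`);
* `map_id_injective_of_field` : `E ⊗ A → E ⊗ C` is injective for `A → C` injective, `E` a field `⊇ W`;
* **`cmp_of_dict_model`** : `Cmp15.cmp_of_dict_frac` for charts with a `q`-expansion
  `e : B01 → K((q))` (abstract form: NO subalgebra types in the statement, so that elaboration stays
  fast), with these inputs discharged.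
-/
import Mathlib
import Fermat.Agent.T1B.Cmp15.ChartDomain
import Fermat.Agent.T1B.Cmp15.DictFrac

set_option autoImplicit false
set_option linter.unusedSectionVars false
set_option linter.style.haveILetI false
set_option maxHeartbeats 1000000

open TensorProduct

noncomputable section

namespace Fermat.Agent.T1B.Cmp15

open Fermat.Agent.Jac Fermat.Agent.Jac.JSmooth85Alg Fermat.Agent.Jac.JGroup85Pic
open Fermat.Agent.Jac.BaseChange75
open Fermat.Agent.T1.RedIface75 Fermat.Agent.T1.Red11 Fermat.Agent.T1.CechFormal70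
open Fermat.Agent.T1B.Toric11 Fermat.Agent.T1B.Hol31.Frame Fermat.Agent.T1B.Hol31.DictExt
open Fermat.Agent.T1.Dict59 Fermat.Agent.T1.Adapt96 Fermat.Agent.T1B.Cmp67
open Fermat.Agent.T1B.Norm84
open scoped Fermat.Agent.Jac.BaseChange75

universe u

/-! ### Flatness over a principal ideal domain -/

section Flat

variable (R : Type*) [CommRing R] [IsDomain R] [IsPrincipalIdealRing R]

/-- a domain into which the PID `R` injects is flat over `R`. -/
theorem flat_of_isDomain_of_injective (O : Type*) [CommRing O] [IsDomain O] [Algebra R O]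
    (h : Function.Injective (algebraMap R O)) : Module.Flat R O := by
  haveI : Module.IsTorsionFree R O := by
    refine ⟨fun r hr x y hxy => ?_⟩
    have hr0 : r ≠ 0 := hr.ne_zero
    have hrO : algebraMap R O r ≠ 0 := fun h0 => hr0 (h (by rw [h0, map_zero]))
    simp only [Algebra.smul_def] at hxy
    exact mul_left_cancel₀ hrO hxy
  infer_instance

/-- subalgebras of a domain into which the PID `R` injects are flat over `R`. -/
theorem flat_subalgebra_of_injective (F : Type*) [CommRing F] [IsDomain F] [Algebra R F]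
    (h : Function.Injective (algebraMap R F)) (B : Subalgebra R F) : Module.Flat R ↥B := by
  refine flat_of_isDomain_of_injective R ↥B ?_
  intro x y hxy
  apply h
  have := congrArg (fun z : ↥B => (z : F)) hxy
  simpa using this

end Flat

/-! ### Charts inside `Kt((q))` -/

section Charts

variable {Kt : Type*} [Field Kt] {Ow : ValuationSubring Kt}
  {FE : IntermediateField Kt (LaurentSeries Kt)}

/-- `W → FE` is injective. -/
theorem algebraMap_Ow_FE_injective : Function.Injective (algebraMap ↥Ow ↥FE) := by
  intro x y hxy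
  rw [IsScalarTower.algebraMap_apply ↥Ow Kt ↥FE, IsScalarTower.algebraMap_apply ↥Ow Kt ↥FE] at hxy
  exact Subtype.ext ((algebraMap Kt ↥FE).injective hxy)

/-- the charts are flat over the DVR `W`. -/
theorem flat_chart [IsPrincipalIdealRing ↥Ow] (B : Subalgebra ↥Ow ↥FE) : Module.Flat ↥Ow ↥B :=
  flat_subalgebra_of_injective ↥Ow ↥FE algebraMap_Ow_FE_injective B

/-- **`E ⊗[W] B` is a domain** for every field `E ⊇ Kt`. -/
theorem isDomain_tensor_field (B : Subalgebra ↥Ow ↥FE) [Module.Flat ↥Ow ↥B]
    (E : Type*) [Field E] [Algebra Kt E] [Algebra ↥Ow E] [IsScalarTower ↥Ow Kt E] :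
    IsDomain (E ⊗[↥Ow] ↥B) :=
  isDomain_tensor_chart B (Eh := E) (O := E) Function.injective_id

end Charts

/-- `E ⊗ A → E ⊗ C` is injective for `A → C` injective and `E` a domain containing the PID `W`. -/
theorem map_id_injective_of_field {W : Type u} [CommRing W] [IsDomain W] [IsPrincipalIdealRing W]
    (E : Type u) [CommRing E] [IsDomain E] [Algebra W E] (hE : Function.Injective (algebraMap W E))
    {A C : Type u} [CommRing A] [CommRing C] [Algebra W A] [Algebra W C] [Algebra A C]
    [IsScalarTower W A C] (h : Function.Injective (algebraMap A C)) :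
    Function.Injective
      (Algebra.TensorProduct.map (AlgHom.id E E) (IsScalarTower.toAlgHom W A C)) := by
  haveI := flat_of_isDomain_of_injective W E hE
  exact map_id_injective_of_flat E h

/-! ### CMP on the models -/

section Final

variable {W : Type u} [CommRing W] [IsDomain W] [IsPrincipalIdealRing W]
  {B0 B1 B01 B0' B1' B01' : Type u} [CommRing B0] [CommRing B1] [CommRing B01]
  [CommRing B0'] [CommRing B1'] [CommRing B01']
  [Algebra W B0] [Algebra W B1] [Algebra W B01] [Algebra W B0'] [Algebra W B1'] [Algebra W B01']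
  [Algebra B0 B01] [IsScalarTower W B0 B01] [Algebra B1 B01] [IsScalarTower W B1 B01]
  [Algebra B0' B01'] [IsScalarTower W B0' B01'] [Algebra B1' B01'] [IsScalarTower W B1' B01']
  [Algebra B01' B01] [IsScalarTower W B01' B01] [Module.Finite B01' B01]
  [Module.Projective B01' B01]
  {g g' : ℕ} (c0 : TwoChart W B0 B1 B01) (c0' : TwoChart W B0' B1' B01')
  {D : CechData W B0 B1 B01 g} {D' : CechData W B0' B1' B01' g'}
  (hρ0 : ∀ x, D.ρ0 x = algebraMap B0 B01 x) (hρ1 : ∀ x, D.ρ1 x = algebraMap B1 B01 x)
  (hρ0' : ∀ x, D'.ρ0 x = algebraMap B0' B01' x) (hρ1' : ∀ x, D'.ρ1 x = algebraMap B1' B01' x)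
  (S : NormSys D D')
  {K : Type u} [Field K] [Algebra W K] [IsFractionRing W K]
  {O : Type u} [CommRing O] [IsDomain O] [IsDiscreteValuationRing O] [Algebra W O]
  {L E : Type u} [Field L] [Field E] [Algebra W L] [Algebra W E] [Algebra L E]
  [IsScalarTower W L E] [Algebra O E] [IsScalarTower W O E] [IsFractionRing O E]
  [Algebra K E] [IsScalarTower W K E]
  {F F' : Type u} [Field F] [Field F'] [Algebra L F] [Algebra L F'] {t : F} {t' : F'}

local notation "𝔪O" => IsLocalRing.maximalIdeal O

/-- a ring with an expansion `e : B → K((q))` which is `W`-linear (`K = Frac W`) and injective is flat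
over the PID `W`. -/
theorem flat_of_expansion {B : Type*} [CommRing B] [Algebra W B] (e : B →+* LaurentSeries K)
    (heW : ∀ w : W, e (algebraMap W B w) = HahnSeries.C (algebraMap W K w))
    (he : Function.Injective e) : Module.Flat W B := by
  haveI : IsDomain B := he.isDomain e
  refine flat_of_isDomain_of_injective W B ?_
  intro x y hxy
  have h1 := congrArg e hxy
  rw [heW, heW] at h1
  exact IsFractionRing.injective W K (HahnSeries.C_injective h1)

include hρ0 hρ1 hρ0' hρ1' in
/-- **CMP, dictionary form, on charts with a `q`-expansion** (`W` a PID with fraction field `K`, the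
overlap `B01` of the source embeds `W`-linearly into `K((q))`, `B01' → B01` is injective, `E ⊇ K`):
all the `E`-level hypotheses of `cmp_of_dict_frac` (flatness of `B01`, `B01'`, `IsDomain (E ⊗ B01)`,
injectivity of `E ⊗ B01' → E ⊗ B01`) are discharged.  On the hub: `e := Cmp15.coeOn (B0S H ⊔ B1S H)`,
`heW := Cmp15.coeOn_algebraMap' _`, `he := Cmp15.coeOn_injective _`. -/
theorem cmp_of_dict_model [Infinite L] {ϖ : O} (hϖ : Irreducible ϖ)
    (hT : Cmp15.TargetHyp D' O ϖ)
    (EL : ChartIso (c0.baseChange L) t) (EL' : ChartIso (c0'.baseChange L) t')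
    (halg : Algebra.IsAlgebraic (Algebra.adjoin L {t}) F)
    (halg' : Algebra.IsAlgebraic (Algebra.adjoin L {t'}) F')
    (e : B01 →+* LaurentSeries K)
    (heW : ∀ w : W, e (algebraMap W B01 w) = HahnSeries.C (algebraMap W K w))
    (he : Function.Injective e)
    (hα : Function.Injective (algebraMap B01' B01))
    (hS : ∀ u : E ⊗[W] B01, S.N01 E u = tnorm W E B01' B01 u)
    (Nm : F →* F')
    (hNm : ∀ u : L ⊗[W] B01, Nm (EL.e01 u) = EL'.e01 (S.N01 L u))
    (y : J1 c0 O) (xL : PicX c0 L)
    (hxy : PicX.map c0 O E (y : PicX c0 O) = PicX.map c0 L E xL)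
    (Good : LinePair L t → Prop)
    (hJ : ∀ (ML : QC2 L (L ⊗[W] B0) (L ⊗[W] B1) (L ⊗[W] B01)) (hML : ML.IsLine)
      (φ : Framing EL ML), xL = LinePic.mk (c0.baseChange L) ML hML →
        Good (framePair EL hML φ))
    (hX : ∀ P : LinePair L t, Good P → ∃ h : F', h ≠ 0 ∧ PairNormTriv Nm t' P h) (n : ℕ) :
    S.βn 𝔪O n (uJ c0 D hρ0 hρ1 O n y) = 1 := by
  haveI : Module.Flat W B01 := flat_of_expansion e heW he
  haveI : Module.Flat W B01' :=
    flat_of_expansion (e.comp (algebraMap B01' B01))
      (fun w => by
        rw [RingHom.comp_apply, ← IsScalarTower.algebraMap_apply W B01' B01, heW])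
      (he.comp hα)
  haveI : IsDomain (E ⊗[W] B01) :=
    Cmp26.isDomain_tensor (E := E) (O := E) heW he Function.injective_id
  have hWE : Function.Injective (algebraMap W E) := by
    rw [IsScalarTower.algebraMap_eq W K E]
    exact (algebraMap K E).injective.comp (IsFractionRing.injective W K)
  exact cmp_of_dict_frac c0 c0' hρ0 hρ1 hρ0' hρ1' S hϖ hT EL EL' halg halg'
    (map_id_injective_of_field E hWE hα) hS Nm hNm y xL hxy Good hJ hX n

end Final

end Fermat.Agent.T1B.Cmp15
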