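/-
T1B (S44), sub-cell TORIC50, brick CMP: **THE SIDE CONDITIONS OF `Cmp67.cmp_hub` ON THE LEVELS**
(helper15).

`W = Wb p K = A ∩ K` (`A = padicPlace p`, `K` a number field), charts = subalgebras
`B ⊆ FK N K ⊂ K((q))` over `W` (on the hub: `B0S H ⊔ B1S H ⊆ FK (M' * p) K`,
`B0T H ⊔ B1T H ⊆ FK M' K`), a level `E ⊇ ι K` (`IsLevel p K E`, e.g. `Λ.E`, `Λ.lev` for
`Λ : NLevel p K`) with its `W`-algebra structure `algWE h`:

* `isPrincipalIdealRing_Wb`  : `W` is a PID (a DVR, `LocModel46.isDVR_AK`);
* `flat_chart_Wb B`          : `Module.Flat W ↥B`                   (the `[Module.Flat W B01]`,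
                               `[Module.Flat W B01']` of `cmp_hub`);
* `flat_level h`             : `letI := algWE h; Module.Flat W ↥E`;
* `isDomain_tensor_level B h`: `letI := algWE h; IsDomain (↥E ⊗[W] ↥B)`   (`_hdom` of `cmp_hub`);
* `map_id_injective_level f hf h` : `letI := algWE h;
                               Injective (Algebra.TensorProduct.map (AlgHom.id ↥E ↥E) f)` for an injective
                               `f : A →ₐ[W] C`                            (`_hinjα`, `_hinjβ` of `cmp_hub`);
* `injective_of_coe`         : a map between subalgebras of fields which is the restriction of a field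
                               homomorphism is injective (for `Mα.α01`, `Mβ.α01`).
-/
import Mathlib
import Fermat.Agent.T1B.Cmp15.LevelModel
import Fermat.Agent.T1B.Local66.LocalBase
import Fermat.Agent.T1.LocModel46.NumField

set_option autoImplicit false
set_option linter.unusedSectionVars false
set_option linter.style.haveILetI false
set_option synthInstance.maxHeartbeats 400000
set_option maxHeartbeats 1000000

open TensorProduct

noncomputable section

namespace Fermat.Agent.T1B.Cmp15

open Fermat.Agent.TW.B5.Iface Fermat.Agent.RED.Interface4 Fermat.Agent.T1.HubInst98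
open Fermat.Agent.T1.IntSub47
open Fermat.Agent.T1B.Local66.LocalBase

variable {p : ℕ} [Fact p.Prime] {K : IntermediateField ℚ Qbar} [FiniteDimensional ℚ K]

/-- `W = A ∩ K` is a principal ideal domain. -/
theorem isPrincipalIdealRing_Wb : IsPrincipalIdealRing (Wb p K) := by
  haveI := Fermat.Agent.T1.LocModel46.isDVR_AK p K
  infer_instance

/-- the charts are flat over `W`. -/
theorem flat_chart_Wb {N : ℕ} (B : Subalgebra (Wb p K) ↥(FK N K)) : Module.Flat (Wb p K) ↥B := by
  haveI := isPrincipalIdealRing_Wb (p := p) (K := K)
  exact flat_chart B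

variable {E : IntermediateField ℚ_[p] (Kbar p)}

/-- `W → E` is injective. -/
theorem algebraMap_W_E_injective (h : IsLevel p K E) :
    letI := algWE h
    Function.Injective (algebraMap (Wb p K) ↥E) := by
  letI := algWE h
  intro x y hxy
  have h1 : toE h (x : ↥K) = toE h (y : ↥K) := hxy
  exact Subtype.ext ((toE h).injective h1)

/-- a level is flat over `W`. -/
theorem flat_level (h : IsLevel p K E) :
    letI := algWE h
    Module.Flat (Wb p K) ↥E := by
  letI := algWE h
  haveI := isPrincipalIdealRing_Wb (p := p) (K := K)
  exact flat_of_isDomain_of_injective (Wb p K) ↥E (algebraMap_W_E_injective h)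

/-- **`E ⊗[W] B` is a domain** for a chart `B ⊆ FK N K` and a level `E` (`_hdom` of `cmp_hub`). -/
theorem isDomain_tensor_level {N : ℕ} (B : Subalgebra (Wb p K) ↥(FK N K)) (h : IsLevel p K E) :
    letI := algWE h
    IsDomain (↥E ⊗[Wb p K] ↥B) := by
  letI := algWE h
  letI : Algebra ↥K ↥E := (toE h).toAlgebra
  haveI : IsScalarTower (Wb p K) ↥K ↥E := IsScalarTower.of_algebraMap_eq' rfl
  haveI := flat_chart_Wb B
  exact isDomain_tensor_field B ↥E

/-- **`E ⊗ A → E ⊗ C` is injective** for an injective `W`-algebra map `f : A → C` and a level `E`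
(`_hinjα`, `_hinjβ` of `cmp_hub`). -/
theorem map_id_injective_level {A C : Type*} [CommRing A] [CommRing C] [Algebra (Wb p K) A]
    [Algebra (Wb p K) C] (f : A →ₐ[Wb p K] C) (hf : Function.Injective f) (h : IsLevel p K E) :
    letI := algWE h
    Function.Injective (Algebra.TensorProduct.map (AlgHom.id ↥E ↥E) f) := by
  letI := algWE h
  haveI := flat_level h
  have h1 : Function.Injective (LinearMap.lTensor ↥E f.toLinearMap) :=
    Module.Flat.lTensor_preserves_injective_linearMap _ hf
  have h2 : ∀ z : ↥E ⊗[Wb p K] A,
      Algebra.TensorProduct.map (AlgHom.id ↥E ↥E) f z = LinearMap.lTensor ↥E f.toLinearMap z := by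
    intro z
    induction z using TensorProduct.induction_on with
    | zero => simp
    | tmul l b => rw [Algebra.TensorProduct.map_tmul, LinearMap.lTensor_tmul]; rfl
    | add x y hx hy => rw [map_add, map_add, hx, hy]
  intro x y hxy
  apply h1
  rw [← h2, ← h2, hxy]

/-- a map between subrings of fields which is the restriction of a field homomorphism is
injective (for `Mα.α01`, `Mβ.α01`: `((Malpha D).α01 x : FS) = alpha K M' q (x : FT)`). -/
theorem injective_of_coe {F F' A C : Type*} [Field F] [Field F'] [SetLike A F'] [SetLike C F]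
    {B' : A} {B : C} (f : ↥B' → ↥B) (ψ : F' →+* F)
    (hf : ∀ x : ↥B', ((f x : ↥B) : F) = ψ (x : F')) : Function.Injective f := by
  intro x y hxy
  apply Subtype.ext
  apply ψ.injective
  rw [← hf, ← hf, hxy]

end Fermat.Agent.T1B.Cmp15
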