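/-
T1B (S44), TORIC50 / `β_ι` model facts, leaf (ii) **IRR from `TargetHyp`** (helper15; dispatch of
helper50): if `ϖ` is a prime element of `O ⊗[W] B` (`B` a chart of the smooth target: `TargetHyp.prime_j`)
and `𝔪 = (ϖ)`, then `Spec ((O ⧸ 𝔪 ^ n) ⊗[W] B)` is irreducible for every `n ≠ 0`:

* `isPrime_nilradical_trunc_of_prime` : `(nilradical (Tr 𝔪 n ⊗[W] B)).IsPrime`
  (the nilradical is the image of the prime ideal `(ϖ)`; `ker (O ⊗ B → Tr 𝔪 n ⊗ B) = (ϖ ^ n) ⊆ (ϖ)`);
* `TargetHyp.irr0`, `TargetHyp.irr1`, `TargetHyp.irr01` : the hypotheses `irr0`, `irr1` of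
  `Norm84.Iota.NodeHyp.of_rational` for `Λ = Tr (maximalIdeal O) n`.
-/
import Mathlib
import Fermat.Agent.T1B.Cmp15.Core

set_option autoImplicit false
set_option linter.unusedSectionVars false

open TensorProduct

noncomputable section

namespace Fermat.Agent.T1B.Cmp15

open Fermat.Agent.T1.CechFormal70 Fermat.Agent.T1B.Toric11

universe u

section Abstract

variable {W O B : Type u} [CommRing W] [CommRing O] [Algebra W O] [CommRing B] [Algebra W B]

/-- **`Spec ((O ⧸ (ϖ)^n) ⊗[W] B)` is irreducible** when `ϖ` is a prime element of `O ⊗[W] B`. -/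
theorem isPrime_nilradical_trunc_of_prime (𝔪 : Ideal O) {ϖ : O} (h𝔪 : 𝔪 = Ideal.span {ϖ})
    (hp : Prime (algebraMap O (O ⊗[W] B) ϖ)) {n : ℕ} (hn : n ≠ 0) :
    (nilradical (Tr 𝔪 n ⊗[W] B)).IsPrime := by
  set p : O ⊗[W] B := algebraMap O (O ⊗[W] B) ϖ with hpdef
  have hf : Function.Surjective
      (Algebra.TensorProduct.map (quo W 𝔪 n) (AlgHom.id W B)) :=
    Algebra.TensorProduct.map_surjective _ _ (Ideal.Quotient.mkₐ_surjective W (𝔪 ^ n))
      Function.surjective_id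
  -- the kernel is `(p ^ n)`
  have hkq : RingHom.ker (quo W 𝔪 n) = Ideal.span {ϖ ^ n} := by
    have : RingHom.ker (quo W 𝔪 n) = 𝔪 ^ n := Ideal.Quotient.mkₐ_ker W (𝔪 ^ n)
    rw [this, h𝔪, Ideal.span_singleton_pow]
  have hker : RingHom.ker (Algebra.TensorProduct.map (quo W 𝔪 n) (AlgHom.id W B))
      = Ideal.span {p ^ n} := by
    rw [Algebra.TensorProduct.rTensor_ker (quo W 𝔪 n) (Ideal.Quotient.mkₐ_surjective W (𝔪 ^ n)),
      hkq, Ideal.map_span, Set.image_singleton]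
    congr 2
    show (ϖ ^ n) ⊗ₜ[W] (1 : B) = p ^ n
    rw [hpdef, Algebra.TensorProduct.algebraMap_apply, Algebra.algebraMap_self, RingHom.id_apply,
      Algebra.TensorProduct.tmul_pow, one_pow]
  have hkerle : RingHom.ker (Algebra.TensorProduct.map (quo W 𝔪 n) (AlgHom.id W B))
      ≤ Ideal.span {p} := by
    rw [hker, Ideal.span_singleton_le_span_singleton]
    exact dvd_pow_self p hn
  have hPprime : (Ideal.span {p}).IsPrime := (Ideal.span_singleton_prime hp.ne_zero).2 hp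
  have hQ : (Ideal.map (Algebra.TensorProduct.map (quo W 𝔪 n) (AlgHom.id W B))
      (Ideal.span {p})).IsPrime :=
    Ideal.map_isPrime_of_surjective hf hkerle
  have hnil : IsNilpotent (Algebra.TensorProduct.map (quo W 𝔪 n) (AlgHom.id W B) p) := by
    refine ⟨n, ?_⟩
    rw [← map_pow]
    have : p ^ n ∈ RingHom.ker (Algebra.TensorProduct.map (quo W 𝔪 n) (AlgHom.id W B)) := by
      rw [hker]
      exact Ideal.mem_span_singleton_self _
    exact this
  have heq : nilradical (Tr 𝔪 n ⊗[W] B)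
      = Ideal.map (Algebra.TensorProduct.map (quo W 𝔪 n) (AlgHom.id W B)) (Ideal.span {p}) := by
    apply le_antisymm
    · exact nilradical_le_prime _
    · rw [Ideal.map_span, Set.image_singleton, Ideal.span_singleton_le_iff_mem, mem_nilradical]
      exact hnil
  rw [heq]
  exact hQ

end Abstract

section Target

variable {W B0' B1' B01' : Type u} [CommRing W]
  [CommRing B0'] [CommRing B1'] [CommRing B01'] [Algebra W B0'] [Algebra W B1'] [Algebra W B01']
  {g' : ℕ} {D' : CechData W B0' B1' B01' g'}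
  {O : Type u} [CommRing O] [IsDomain O] [IsDiscreteValuationRing O] [Algebra W O] {ϖ : O}

/-- **`irr0`** of `NodeHyp.of_rational` at `Λ = O ⧸ 𝔪 ^ n`, from `TargetHyp`. -/
theorem TargetHyp.irr0 (hT : TargetHyp D' O ϖ) (hϖ : Irreducible ϖ) {n : ℕ} (hn : n ≠ 0) :
    (nilradical (Tr (IsLocalRing.maximalIdeal O) n ⊗[W] B0')).IsPrime :=
  isPrime_nilradical_trunc_of_prime _ hϖ.maximalIdeal_eq hT.prime0 hn

/-- **`irr1`** of `NodeHyp.of_rational` at `Λ = O ⧸ 𝔪 ^ n`, from `TargetHyp`. -/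
theorem TargetHyp.irr1 (hT : TargetHyp D' O ϖ) (hϖ : Irreducible ϖ) {n : ℕ} (hn : n ≠ 0) :
    (nilradical (Tr (IsLocalRing.maximalIdeal O) n ⊗[W] B1')).IsPrime :=
  isPrime_nilradical_trunc_of_prime _ hϖ.maximalIdeal_eq hT.prime1 hn

/-- the same on the overlap. -/
theorem TargetHyp.irr01 (hT : TargetHyp D' O ϖ) (hϖ : Irreducible ϖ) {n : ℕ} (hn : n ≠ 0) :
    (nilradical (Tr (IsLocalRing.maximalIdeal O) n ⊗[W] B01')).IsPrime :=
  isPrime_nilradical_trunc_of_prime _ hϖ.maximalIdeal_eq hT.prime01 hn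

end Target

end Fermat.Agent.T1B.Cmp15
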