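/-
T1B (S44), brick CMP (helper15), part R2-a: **the reduced `q`-expansion of the charts of a two-chart
model over a Gauss valuation ring**.

Setting (Program H / `RED`): `O` a valuation subring of a field `Kt` with uniformiser `π`,
`E ⊂ Frac O((q))` an intermediate field of `Kt((q))/Kt`, `Ov := GaussGen8.gaussVS hπ E hE` its Gauss
valuation ring, with residue map `gaussVSRed : Ov →+* κ((q))`, `κ = Res O`.

For a chart `B ⊆ Ov` (a subalgebra of `E` over `O`) which is `π`-saturated in `Ov`: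
* `resOn hπ hE B hle : ↥B →+* LaurentSeries (Res O)` — the reduced expansion;
* `resOn_algebraMap` : on constants it is `C ∘ res0`;
* `resOn_eq_zero` : its kernel is `π B`  (the `q`-expansion principle on the chart);
* `coeOn B : ↥B →+* LaurentSeries Kt`, injective, `C` on constants (the generic expansion).
For a `TwoChartModel` the hypotheses hold for `B0`, `B1`, `B0 ⊔ B1` (`le_Ov0`, `sat0`, …, `sat01`).
-/
import Mathlib
import Fermat.Agent.RED.NumInst4
import Fermat.Agent.T1.ModelCoh30.Basic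

set_option autoImplicit false
set_option linter.unusedSectionVars false

noncomputable section

namespace Fermat.Agent.T1B.Cmp15

open HahnSeries Fermat.Agent.RED.CORE.CoreIface24 Fermat.Agent.RED.PUR.GaussGen8

variable {Kt : Type*} [Field Kt] {O : ValuationSubring Kt}
  {E : IntermediateField Kt (LaurentSeries Kt)}

section ResOn

variable {π : O} (hπ : IsUnif O π) (hE : E ≤ fracField O)

/-- the inclusion of a chart `B ⊆ Ov` into the Gauss valuation ring. -/
def toGaussVS (B : Subalgebra ↥O ↥E) (hle : ∀ x ∈ B, x ∈ gaussVS hπ E hE) :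
    ↥B →+* gaussVS hπ E hE where
  toFun b := ⟨(b : E), hle _ b.2⟩
  map_one' := rfl
  map_mul' _ _ := rfl
  map_zero' := rfl
  map_add' _ _ := rfl

/-- **the reduced expansion** of a chart `B ⊆ Ov`. -/
def resOn (B : Subalgebra ↥O ↥E) (hle : ∀ x ∈ B, x ∈ gaussVS hπ E hE) :
    ↥B →+* LaurentSeries (Res O) :=
  (gaussVSRed hπ E hE).comp (toGaussVS hπ hE B hle)

theorem resOn_apply (B : Subalgebra ↥O ↥E) (hle : ∀ x ∈ B, x ∈ gaussVS hπ E hE) (b : ↥B) :
    resOn hπ hE B hle b =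
      gaussRed O ⟨((b : E) : LaurentSeries Kt), (mem_gaussVS_iff hπ E hE _).mp (hle _ b.2)⟩ :=
  rfl

/-- on constants the reduced expansion is the residue map. -/
theorem resOn_algebraMap (B : Subalgebra ↥O ↥E) (hle : ∀ x ∈ B, x ∈ gaussVS hπ E hE) (c : O) :
    resOn hπ hE B hle (algebraMap ↥O ↥B c) = HahnSeries.C (res0 O c) := by
  rw [resOn_apply]
  have : (⟨(((algebraMap ↥O ↥B c : ↥B) : E) : LaurentSeries Kt),
      (mem_gaussVS_iff hπ E hE _).mp (hle _ (algebraMap ↥O ↥B c).2)⟩ : gaussRing O)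
        = constG O c :=
    Subtype.ext (Fermat.Agent.RED.NumInst4.coe_algebraMap_OE O E c)
  rw [this, gaussRed_constG]

/-- **the `q`-expansion principle on a saturated chart**: the kernel of the reduced expansion is
`π B`. -/
theorem resOn_eq_zero (B : Subalgebra ↥O ↥E) (hle : ∀ x ∈ B, x ∈ gaussVS hπ E hE)
    (hsat : ∀ b ∈ B, ∀ c ∈ gaussVS hπ E hE, b = algebraMap ↥O ↥E π * c → c ∈ B)
    {b : ↥B} (hb : resOn hπ hE B hle b = 0) : ∃ b' : ↥B, b = algebraMap ↥O ↥B π * b' := by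
  have hcoe := Fermat.Agent.RED.NumInst4.coe_algebraMap_OE O E
  rw [resOn_apply, gaussRed_eq_zero_iff hπ] at hb
  obtain ⟨g, hg⟩ := hb
  have hg' : ((b : E) : LaurentSeries Kt) = piK π * (g : LaurentSeries Kt) :=
    congrArg (fun f : gaussRing O => (f : LaurentSeries Kt)) hg
  have hπE : (algebraMap ↥O ↥E π : E) ≠ 0 := by
    intro h
    have h1 := congrArg Subtype.val h
    rw [hcoe] at h1
    exact piK_ne_zero hπ h1
  set c : E := (b : E) * (algebraMap ↥O ↥E π)⁻¹ with hc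
  have hcO : c ∈ gaussVS hπ E hE := by
    rw [mem_gaussVS_iff]
    have : ((c : E) : LaurentSeries Kt) = g := by
      rw [hc]
      push_cast
      rw [hcoe, hg', mul_comm (piK π), mul_assoc, mul_inv_cancel₀ (piK_ne_zero hπ), mul_one]
    rw [this]
    exact g.2
  have hbc : (b : E) = algebraMap ↥O ↥E π * c := by
    rw [hc, mul_comm (b : E), ← mul_assoc, mul_inv_cancel₀ hπE, one_mul]
  exact ⟨⟨c, hsat _ b.2 c hcO hbc⟩, Subtype.ext hbc⟩

end ResOn

section CoeOn

/-- **the generic expansion** of a chart: the coercion `B ⊆ E ⊆ Kt((q))`. -/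
def coeOn (B : Subalgebra ↥O ↥E) : ↥B →+* LaurentSeries Kt :=
  (E.val : ↥E →+* LaurentSeries Kt).comp (B.val : ↥B →+* ↥E)

theorem coeOn_apply (B : Subalgebra ↥O ↥E) (b : ↥B) :
    coeOn B b = ((b : E) : LaurentSeries Kt) := rfl

theorem coeOn_injective (B : Subalgebra ↥O ↥E) : Function.Injective (coeOn B) := by
  intro x y h
  exact Subtype.ext (Subtype.ext h)

theorem coeOn_algebraMap (B : Subalgebra ↥O ↥E) (c : O) :
    coeOn B (algebraMap ↥O ↥B c) = HahnSeries.C ((c : O) : Kt) :=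
  Fermat.Agent.RED.NumInst4.coe_algebraMap_OE O E c

end CoeOn

section Model

open Fermat.Agent.T1.ModelCoh30 in
/-- the three reduced expansions of a two-chart model over a Gauss valuation ring, with their
properties, in one statement (`k = Res O`): constants and kernel `= π B`. -/
theorem exists_expansions {π : O} (hπ : IsUnif O π) (hE : E ≤ fracField O) {t : E}
    {B0 B1 : Subalgebra ↥O ↥E} (M : TwoChartModel ↥O Kt ↥E π t B0 B1 (gaussVS hπ E hE)) :
    (∃ ε : ↥B0 →+* LaurentSeries (Res O),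
      (∀ c : O, ε (algebraMap ↥O ↥B0 c) = HahnSeries.C (res0 O c)) ∧
      ∀ b, ε b = 0 → ∃ b' : ↥B0, b = algebraMap ↥O ↥B0 π * b') ∧
    (∃ ε : ↥B1 →+* LaurentSeries (Res O),
      (∀ c : O, ε (algebraMap ↥O ↥B1 c) = HahnSeries.C (res0 O c)) ∧
      ∀ b, ε b = 0 → ∃ b' : ↥B1, b = algebraMap ↥O ↥B1 π * b') ∧
    (∃ ε : ↥(B0 ⊔ B1) →+* LaurentSeries (Res O),
      (∀ c : O, ε (algebraMap ↥O ↥(B0 ⊔ B1) c) = HahnSeries.C (res0 O c)) ∧
      ∀ b, ε b = 0 → ∃ b' : ↥(B0 ⊔ B1), b = algebraMap ↥O ↥(B0 ⊔ B1) π * b') :=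
  ⟨⟨resOn hπ hE B0 M.le_Ov0, resOn_algebraMap hπ hE B0 M.le_Ov0,
      fun _ hb => resOn_eq_zero hπ hE B0 M.le_Ov0 M.sat0 hb⟩,
    ⟨resOn hπ hE B1 M.le_Ov1, resOn_algebraMap hπ hE B1 M.le_Ov1,
      fun _ hb => resOn_eq_zero hπ hE B1 M.le_Ov1 M.sat1 hb⟩,
    ⟨resOn hπ hE (B0 ⊔ B1) (sup_le_Ov M), resOn_algebraMap hπ hE (B0 ⊔ B1) (sup_le_Ov M),
      fun _ hb => resOn_eq_zero hπ hE (B0 ⊔ B1) (sup_le_Ov M) (sat01 M) hb⟩⟩

end Model

end Fermat.Agent.T1B.Cmp15
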