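/-
T1B (S44), brick CMP (helper15), part R2-c: **the target hypotheses `TargetHyp D' O ϖ`** of
`Cmp15.cmp_core`, discharged

* `targetHyp_of_expansions` : abstractly, from reduced expansions `ε_j : B_j' →+* κ_W((q))` of the three
  charts of the target (constants ↦ `C ∘ residue`, kernel `= π B_j'`), and injectivity of the structure
  maps and of the restrictions, for ANY discrete valuation ring `O` flat over the local ring `W` with a
  local structure map (ramification, residue extension, completeness all allowed); the algebra is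
  helper26's `Cmp26.prime_algebraMap_tensor_residue`, `Cmp26.map_id_injective`;
* `targetHyp_of_model` : concretely, for the charts `(B0, B1, B0 ⊔ B1)` of a `RED` two-chart model
  `TwoChartModel ↥Ow Kt ↥E π t B0 B1 (gaussVS hπ E hE)` over a Gauss valuation ring (Program H's smooth
  model of `X₀(M')` over `W = AK A K`), for any Čech datum `D'` on these charts whose restriction maps are
  the inclusions (e.g. `ModelCoh30.cechData`).
-/
import Mathlib
import Fermat.Agent.T1B.Cmp15.Core
import Fermat.Agent.T1B.Cmp26.TargetAbs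
import Fermat.Agent.T1B.Cmp15.TargetExp

set_option autoImplicit false
set_option linter.unusedSectionVars false
set_option linter.style.haveILetI false

open TensorProduct HahnSeries

noncomputable section

namespace Fermat.Agent.T1B.Cmp15

open Fermat.Agent.T1.CechFormal70

universe u

/-- a ring map from a local ring with maximal ideal `(π)` to a local ring, sending `π` into the
maximal ideal, is a local homomorphism. -/
theorem isLocalHom_of_unif {W O : Type*} [CommRing W] [IsLocalRing W] [CommRing O] [IsLocalRing O]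
    [Algebra W O] {π : W} (hπ : IsLocalRing.maximalIdeal W = Ideal.span {π})
    (hπO : algebraMap W O π ∈ IsLocalRing.maximalIdeal O) : IsLocalHom (algebraMap W O) := by
  refine ⟨fun a ha => ?_⟩
  by_contra hna
  have h1 : a ∈ IsLocalRing.maximalIdeal W := (IsLocalRing.mem_maximalIdeal a).2 hna
  rw [hπ, Ideal.mem_span_singleton] at h1
  obtain ⟨c, rfl⟩ := h1
  rw [map_mul] at ha
  exact (IsLocalRing.mem_maximalIdeal _).1 hπO (isUnit_of_mul_isUnit_left ha)

section Abstract

variable {W B0' B1' B01' : Type u} [CommRing W] [IsLocalRing W]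
  [CommRing B0'] [CommRing B1'] [CommRing B01'] [Algebra W B0'] [Algebra W B1'] [Algebra W B01']
  {g' : ℕ}

/-- **`TargetHyp` from reduced expansions of the three charts.** -/
theorem targetHyp_of_expansions (D' : CechData W B0' B1' B01' g')
    (hB0 : Function.Injective (algebraMap W B0')) (hB1 : Function.Injective (algebraMap W B1'))
    (hB01 : Function.Injective (algebraMap W B01'))
    (hρ0 : Function.Injective D'.ρ0) (hρ1 : Function.Injective D'.ρ1)
    {π : W} (hπ : π ∈ IsLocalRing.maximalIdeal W)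
    (O : Type u) [CommRing O] [IsDomain O] [IsDiscreteValuationRing O] [Algebra W O]
    [IsLocalHom (algebraMap W O)] [Module.Flat W O] {ϖ : O} (hϖ : Irreducible ϖ)
    (ε0 : B0' →+* LaurentSeries (IsLocalRing.ResidueField W))
    (hε0W : ∀ w : W, ε0 (algebraMap W B0' w) = HahnSeries.C (IsLocalRing.residue W w))
    (hε0 : ∀ b : B0', ε0 b = 0 → ∃ b' : B0', b = algebraMap W B0' π * b')
    (ε1 : B1' →+* LaurentSeries (IsLocalRing.ResidueField W))
    (hε1W : ∀ w : W, ε1 (algebraMap W B1' w) = HahnSeries.C (IsLocalRing.residue W w))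
    (hε1 : ∀ b : B1', ε1 b = 0 → ∃ b' : B1', b = algebraMap W B1' π * b')
    (ε01 : B01' →+* LaurentSeries (IsLocalRing.ResidueField W))
    (hε01W : ∀ w : W, ε01 (algebraMap W B01' w) = HahnSeries.C (IsLocalRing.residue W w))
    (hε01 : ∀ b : B01', ε01 b = 0 → ∃ b' : B01', b = algebraMap W B01' π * b') :
    TargetHyp D' O ϖ := by
  refine ⟨?_, ?_, ?_, ?_, ?_⟩
  · exact Cmp26.prime_algebraMap_tensor_residue hB0 ε0 hε0W π hπ hε0 ϖ hϖ.ne_zero
      hϖ.maximalIdeal_eq
  · exact Cmp26.prime_algebraMap_tensor_residue hB1 ε1 hε1W π hπ hε1 ϖ hϖ.ne_zero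
      hϖ.maximalIdeal_eq
  · exact Cmp26.prime_algebraMap_tensor_residue hB01 ε01 hε01W π hπ hε01 ϖ hϖ.ne_zero
      hϖ.maximalIdeal_eq
  · exact Cmp26.map_id_injective O D'.ρ0 hρ0
  · exact Cmp26.map_id_injective O D'.ρ1 hρ1

end Abstract

section Model

open Fermat.Agent.RED.CORE.CoreIface24 Fermat.Agent.RED.PUR.GaussGen8 Fermat.Agent.T1.ModelCoh30

variable {Kt : Type u} [Field Kt] {Ow : ValuationSubring Kt}
  {E : IntermediateField Kt (LaurentSeries Kt)}

/-- **`TargetHyp` for the smooth two-chart model over a Gauss valuation ring**: for every discrete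
valuation ring `O` over `W = ↥Ow`, flat, with local structure map, and every uniformiser `ϖ` of `O`. -/
theorem targetHyp_of_model {π : Ow} (hπ : IsUnif Ow π) (hE : E ≤ fracField Ow) {t : E}
    {B0 B1 : Subalgebra ↥Ow ↥E} (M : TwoChartModel ↥Ow Kt ↥E π t B0 B1 (gaussVS hπ E hE))
    {g' : ℕ} (D' : CechData ↥Ow ↥B0 ↥B1 ↥(B0 ⊔ B1) g')
    (hρ0 : ∀ x : ↥B0, ((D'.ρ0 x : ↥(B0 ⊔ B1)) : E) = (x : E))
    (hρ1 : ∀ x : ↥B1, ((D'.ρ1 x : ↥(B0 ⊔ B1)) : E) = (x : E))
    (O : Type u) [CommRing O] [IsDomain O] [IsDiscreteValuationRing O] [Algebra ↥Ow O]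
    [IsLocalHom (algebraMap ↥Ow O)] [Module.Flat ↥Ow O] {ϖ : O} (hϖ : Irreducible ϖ) :
    TargetHyp D' O ϖ := by
  have hB : ∀ B : Subalgebra ↥Ow ↥E, Function.Injective (algebraMap ↥Ow ↥B) := by
    intro B x y hxy
    exact algebraMap_injective M (congrArg (fun b : ↥B => (b : E)) hxy)
  have hπm : π ∈ IsLocalRing.maximalIdeal ↥Ow := by
    rw [hπ.max_eq]
    exact Ideal.mem_span_singleton_self π
  have hinj0 : Function.Injective D'.ρ0 := by
    intro x y hxy
    apply Subtype.ext
    rw [← hρ0 x, ← hρ0 y, hxy]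
  have hinj1 : Function.Injective D'.ρ1 := by
    intro x y hxy
    apply Subtype.ext
    rw [← hρ1 x, ← hρ1 y, hxy]
  exact targetHyp_of_expansions D' (hB B0) (hB B1) (hB (B0 ⊔ B1)) hinj0 hinj1 hπm O hϖ
    (resOn hπ hE B0 M.le_Ov0) (resOn_algebraMap hπ hE B0 M.le_Ov0)
    (fun _ hb => resOn_eq_zero hπ hE B0 M.le_Ov0 M.sat0 hb)
    (resOn hπ hE B1 M.le_Ov1) (resOn_algebraMap hπ hE B1 M.le_Ov1)
    (fun _ hb => resOn_eq_zero hπ hE B1 M.le_Ov1 M.sat1 hb)
    (resOn hπ hE (B0 ⊔ B1) (sup_le_Ov M)) (resOn_algebraMap hπ hE (B0 ⊔ B1) (sup_le_Ov M))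
    (fun _ hb => resOn_eq_zero hπ hE (B0 ⊔ B1) (sup_le_Ov M) (sat01 M) hb)

end Model

end Fermat.Agent.T1B.Cmp15
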